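import Fermat.Agent.HasseNorm.Conic
import Fermat.Agent.QuadForms.Local

/-!
# Completions of a number field: squares and weak approximation

Near a nonzero element everything is a square times it, and the field is dense in every finite
product of completions and real embeddings.
-/

set_option autoImplicit false
set_option linter.unusedSectionVars false
set_option linter.style.haveILetI false

noncomputable section

open NumberField NumberField.InfinitePlace IsDedekindDomain Finset WithZero Filter Topology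
open FA.ArtinRec (intU ord unif ord_unif exists_approx valuation_eq_exp)
open FA.HasseCyclic (valuation_natCast)
open scoped Pointwise nonZeroDivisors Classical

namespace FA.QuadFormsNF

variable {K : Type*} [Field K] [NumberField K]

theorem valued_algebraMap (v : HeightOneSpectrum (𝓞 K)) (x : K) :
    Valued.v (algebraMap K (v.adicCompletion K) x) = v.valuation K x :=
  v.valuedAdicCompletion_eq_valuation' x

theorem two_ne_zero_completion (v : HeightOneSpectrum (𝓞 K)) : (2 : v.adicCompletion K) ≠ 0 := by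
  rw [← map_ofNat (algebraMap K (v.adicCompletion K)) 2]
  exact (map_ne_zero _).2 two_ne_zero

theorem charZero_completion (v : HeightOneSpectrum (𝓞 K)) : CharZero (v.adicCompletion K) :=
  charZero_of_injective_algebraMap (algebraMap K (v.adicCompletion K)).injective

open scoped Valued in
/-- **Near a nonzero element, a square times it.** -/
theorem eventually_eq_mul_sq (v : HeightOneSpectrum (𝓞 K)) {z : v.adicCompletion K} (hz : z ≠ 0) :
    ∀ᶠ y in 𝓝 z, ∃ s : v.adicCompletion K, s ≠ 0 ∧ y = z * s ^ 2 := by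
  have hd : HasStrictDerivAt (fun s : v.adicCompletion K => z * s ^ 2)
      (z * ((2 : ℕ) * (1 : v.adicCompletion K) ^ (2 - 1))) 1 :=
    (hasStrictDerivAt_pow 2 1).const_mul z
  have hmap := hd.map_nhds_eq (mul_ne_zero hz (by simpa using two_ne_zero_completion v))
  rw [show z * (1 : v.adicCompletion K) ^ 2 = z by ring] at hmap
  have hne : ∀ᶠ s in 𝓝 (1 : v.adicCompletion K), s ≠ 0 :=
    isOpen_ne.eventually_mem one_ne_zero
  rw [← hmap, eventually_map]
  exact hne.mono fun s hs => ⟨s, hs, rfl⟩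

theorem exists_isSquare_mul_near (v : HeightOneSpectrum (𝓞 K)) {z : v.adicCompletion K}
    (hz : z ≠ 0) : ∃ U ∈ 𝓝 z, ∀ y ∈ U, ∃ s : v.adicCompletion K, s ≠ 0 ∧ y = z * s ^ 2 :=
  ⟨_, eventually_eq_mul_sq v hz, fun _ hy => hy⟩

/-- A neighbourhood contains all elements congruent to a high exponent. -/
theorem exists_exp_subset (v : HeightOneSpectrum (𝓞 K)) {z : v.adicCompletion K}
    {U : Set (v.adicCompletion K)} (hU : U ∈ 𝓝 z) :
    ∃ k : ℕ, ∀ y : v.adicCompletion K, Valued.v (y - z) ≤ exp (-(k : ℤ)) → y ∈ U := by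
  obtain ⟨γ, hγ⟩ := Valued.mem_nhds.1 hU
  set e := MonoidWithZeroHom.ValueGroup₀.embedding γ.1 with he
  have he0 : e ≠ 0 := (map_ne_zero _).2 γ.ne_zero
  refine ⟨(-log e + 1).toNat, fun y hy => hγ ?_⟩
  rw [Set.mem_ofPred_eq, Valuation.restrict_lt_iff_lt_embedding]
  exact hy.trans_lt ((exp_lt_exp.2 (show -(((-log e + 1).toNat : ℕ) : ℤ) < log e by omega)).trans_eq
    (exp_log he0))

/-- An element of the field congruent to a given one of the completion. -/
theorem exists_element_near (v : HeightOneSpectrum (𝓞 K)) (z : v.adicCompletion K) (k : ℕ) :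
    ∃ b : Kˣ, Valued.v (algebraMap K (v.adicCompletion K) (b : K) - z) ≤ exp (-(k : ℤ)) := by
  have hc : Valued.v (algebraMap K (v.adicCompletion K) ((unif v : K) ^ k)) = exp (-(k : ℤ)) := by
    rw [valued_algebraMap, map_pow, valuation_eq_exp, ord_unif, ← exp_nsmul]
    simp
  have hopen : IsOpen {y : v.adicCompletion K |
      (Valued.v (R := v.adicCompletion K)).restrict (y - z) <
        (Valued.v (R := v.adicCompletion K)).restrict
          (algebraMap K (v.adicCompletion K) ((unif v : K) ^ k))} :=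
    (Valued.isOpen_ball _ _).preimage (continuous_id.sub continuous_const)
  obtain ⟨b, hb⟩ := (HeightOneSpectrum.denseRange_algebraMap K v).exists_mem_open hopen ⟨z, by
    rw [Set.mem_ofPred_eq, sub_self, Valuation.restrict_lt_iff, map_zero, hc]
    exact exp_pos⟩
  rw [Set.mem_ofPred_eq, Valuation.restrict_lt_iff, hc] at hb
  by_cases h0 : b = 0
  · refine ⟨unif v ^ k, (le_of_eq ?_)⟩
    have hz : Valued.v z < exp (-(k : ℤ)) := by
      rwa [h0, map_zero, zero_sub, Valuation.map_neg] at hb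
    rw [Valuation.map_sub_eq_of_lt_left _ (by rwa [Units.val_pow_eq_pow_val, hc]),
      Units.val_pow_eq_pow_val, hc]
  · exact ⟨Units.mk0 b h0, hb.le⟩

/-- A number in every prime of a finite set. -/
theorem exists_natCast_mem (S : Finset (HeightOneSpectrum (𝓞 K))) :
    ∃ N : ℕ, N ≠ 0 ∧ ∀ v ∈ S, (N : 𝓞 K) ∈ v.asIdeal := by
  refine ⟨Ideal.absNorm (∏ v ∈ S, v.asIdeal), ?_, fun v hv =>
    Ideal.le_of_dvd (Finset.dvd_prod_of_mem _ hv) (Ideal.absNorm_mem _)⟩
  rw [Ne, Ideal.absNorm_eq_zero_iff]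
  exact Finset.prod_ne_zero_iff.2 fun v _ => v.ne_bot

/-- Congruences at finitely many primes and real approximation. -/
theorem exists_approx_add (S : Finset (HeightOneSpectrum (𝓞 K))) (k : ℕ) (z : K)
    (T : (K →+* ℝ) → ℝ) {ε : ℝ} (hε : 0 < ε) :
    ∃ x : K, (∀ v ∈ S, v.valuation K (x - z) ≤ exp (-(k : ℤ))) ∧
      ∀ φ : K →+* ℝ, |φ x - T φ| < ε := by
  let tgt : (w : InfinitePlace K) → ℝ := fun w =>
    if h : IsReal w then T (embedding_of_isReal h) - embedding_of_isReal h z else 0
  -- targets in the field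
  have hd : ∀ w : InfinitePlace K, ∀ h : IsReal w, ∃ q : ℚ,
      |embedding_of_isReal h (q : K) - tgt w| < ε / 4 := fun w h => by
    obtain ⟨q, hq1, hq2⟩ := exists_rat_btwn (show tgt w - ε / 4 < tgt w + ε / 4 by linarith)
    exact ⟨q, by rw [map_ratCast, abs_lt]; constructor <;> linarith⟩
  choose qr hqr using hd
  let tK : InfinitePlace K → K := fun w => if h : IsReal w then (qr w h : K) else 0
  let U : Set ((w : InfinitePlace K) → WithAbs w.1) :=
    Set.univ.pi fun w => {y | w.1 (WithAbs.ofAbs y - tK w) < ε / 4}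
  have hU : IsOpen U := isOpen_set_pi Set.finite_univ fun w _ => by
    have h : {y : WithAbs w.1 | w.1 (WithAbs.ofAbs y - tK w) < ε / 4} =
        Metric.ball (WithAbs.toAbs w.1 (tK w)) (ε / 4) := by
      ext y
      rw [Metric.mem_ball, dist_eq_norm]
      rfl
    rw [h]
    exact Metric.isOpen_ball
  obtain ⟨w₀, hw₀⟩ := (InfinitePlace.denseRange_algebraMap_pi K).exists_mem_open hU
    ⟨fun w => WithAbs.toAbs w.1 (tK w), fun w _ => by
      show w.1 (tK w - tK w) < ε / 4
      simp [hε]⟩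
  have hw : ∀ φ : K →+* ℝ, |φ w₀ - (T φ - φ z)| < ε / 2 := fun φ => by
    obtain ⟨⟨w, hw⟩, rfl⟩ := FA.Hecke.exists_isReal_embedding φ
    have h := hw₀ w trivial
    change w.1 (w₀ - tK w) < ε / 4 at h
    rw [show tK w = (qr w hw : K) from dif_pos hw, ← InfinitePlace.coe_apply,
      ← norm_embedding_of_isReal hw, Real.norm_eq_abs, map_sub] at h
    have h2 := hqr w hw
    rw [show tgt w = T (embedding_of_isReal hw) - embedding_of_isReal hw z from dif_pos hw] at h2
    rw [abs_lt] at h h2 ⊢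
    constructor <;> linarith [h.1, h.2, h2.1, h2.2]
  -- a rational number near one, small at the primes
  obtain ⟨N, hN0, hN⟩ := exists_natCast_mem S
  by_cases hw00 : w₀ = 0
  · exact ⟨z, fun v _ => by simp, fun φ => by
      have := hw φ
      rw [hw00, map_zero, abs_lt] at this
      rw [abs_lt]
      constructor <;> linarith [this.1, this.2]⟩
  set j : ℕ := k + 1 + ∑ v ∈ S, (-ord v (Units.mk0 w₀ hw00)).toNat
  obtain ⟨M, hM⟩ := exists_nat_gt ((∑ φ : K →+* ℝ, |φ w₀|) * 2 / ε)
  set A : ℕ := N ^ j * (M + 1)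
  have hA : (A : K) + 1 ≠ 0 := by exact_mod_cast Nat.succ_ne_zero A
  refine ⟨z + w₀ * ((A : K) / (A + 1)), fun v hv => ?_, fun φ => ?_⟩
  · have hNj : v.valuation K ((N : K) ^ j) ≤ exp (-(j : ℤ)) := by
      have h1 : v.valuation K (N : K) ≤ exp (-(1 : ℤ)) := by
        rw [← map_natCast (algebraMap (𝓞 K) K), v.valuation_of_algebraMap]
        refine ((v.intValuation_le_pow_iff_mem _ 1).2 (by rw [pow_one]; exact hN v hv)).trans ?_
        simp
      rw [map_pow]
      refine (pow_le_pow_left₀ zero_le h1 j).trans ?_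
      rw [← exp_nsmul]
      simp
    have hA1 : v.valuation K (A : K) ≤ exp (-(j : ℤ)) := by
      rw [show (A : K) = (N : K) ^ j * ((M + 1 : ℕ) : K) by simp [A], map_mul]
      exact (mul_le_of_le_one_right zero_le (valuation_natCast v _)).trans hNj
    have hA2 : v.valuation K ((A : K) + 1) = 1 := by
      rw [(v.valuation K).map_add_eq_of_lt_right, map_one]
      rw [map_one, ← exp_zero]
      exact hA1.trans_lt (exp_lt_exp.2 (by omega))
    have hw1 : v.valuation K w₀ ≤ exp ((j : ℤ) - k) := by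
      rw [show w₀ = ((Units.mk0 w₀ hw00 : Kˣ) : K) from rfl, valuation_eq_exp, exp_le_exp]
      have := Finset.single_le_sum (f := fun v => (-ord v (Units.mk0 w₀ hw00)).toNat)
        (fun _ _ => Nat.zero_le _) hv
      omega
    rw [add_sub_cancel_left, map_mul, map_div₀, hA2, div_one]
    refine (mul_le_mul' hw1 hA1).trans ?_
    rw [← exp_add, exp_le_exp]
    omega
  · have hAR : (0 : ℝ) < (A : ℝ) + 1 := by positivity
    have hbig : |φ w₀| * 2 / ε < (A : ℝ) + 1 := by
      have h1 : |φ w₀| * 2 / ε ≤ (∑ φ : K →+* ℝ, |φ w₀|) * 2 / ε := by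
        gcongr
        exact Finset.single_le_sum (f := fun φ : K →+* ℝ => |φ w₀|) (fun _ _ => abs_nonneg _)
          (Finset.mem_univ φ)
      have h2 : ((M : ℝ) + 1) ≤ (A : ℝ) := by
        have : M + 1 ≤ A := Nat.le_mul_of_pos_left _ (pow_pos (Nat.pos_of_ne_zero hN0) j)
        exact_mod_cast this
      linarith
    have hsmall : |φ w₀ / ((A : ℝ) + 1)| < ε / 2 := by
      rw [abs_div, abs_of_pos hAR, div_lt_iff₀ hAR]
      rw [div_lt_iff₀ hε] at hbig
      linarith
    have h := hw φ
    rw [map_add, map_mul, map_div₀, map_add, map_natCast, map_one]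
    have e : φ w₀ * ((A : ℝ) / ((A : ℝ) + 1)) = φ w₀ - φ w₀ / ((A : ℝ) + 1) := by
      field_simp
      ring
    rw [e, abs_lt]
    rw [abs_lt] at hsmall h
    constructor <;> linarith [hsmall.1, hsmall.2, h.1, h.2]

/-- **Weak approximation.** -/
theorem exists_weak_approx (S : Finset (HeightOneSpectrum (𝓞 K)))
    (U : ∀ v : HeightOneSpectrum (𝓞 K), Set (v.adicCompletion K))
    (hU : ∀ v ∈ S, ∃ z, U v ∈ 𝓝 z) (V : (K →+* ℝ) → Set ℝ) (hV : ∀ φ, ∃ t, V φ ∈ 𝓝 t) :
    ∃ x : K, (∀ v ∈ S, algebraMap K (v.adicCompletion K) x ∈ U v) ∧ ∀ φ, φ x ∈ V φ := by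
  choose! tz htz using hU
  have hk : ∀ v ∈ S, ∃ k : ℕ, ∀ y, Valued.v (y - tz v) ≤ exp (-(k : ℤ)) → y ∈ U v :=
    fun v hv => exists_exp_subset v (htz v hv)
  choose! kv hkv using hk
  set k := S.sup kv
  have hb := fun v => exists_element_near v (tz v) k
  choose b hb using hb
  set k' : ℕ := k + ∑ v ∈ S, (-ord v (b v)).toNat
  obtain ⟨a, ha, -⟩ := exists_approx S b k' (fun _ => true)
  choose T hT using hV
  have he : ∀ φ, ∃ ε > 0, ∀ y : ℝ, |y - T φ| < ε → y ∈ V φ := fun φ => by
    obtain ⟨ε, hε, hsub⟩ := Metric.mem_nhds_iff.1 (hT φ)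
    exact ⟨ε, hε, fun y hy => hsub hy⟩
  choose ε hε hεV using he
  obtain ⟨δ, hδ, hδle⟩ : ∃ δ > 0, ∀ φ : K →+* ℝ, δ ≤ ε φ := by
    rcases (Finset.univ : Finset (K →+* ℝ)).eq_empty_or_nonempty with h | h
    · exact ⟨1, one_pos, fun φ => absurd (Finset.mem_univ φ) (by rw [h]; simp)⟩
    · obtain ⟨φ₀, -, hφ₀⟩ := Finset.exists_min_image _ ε h
      exact ⟨ε φ₀, hε φ₀, fun φ => hφ₀ φ (Finset.mem_univ φ)⟩
  obtain ⟨x, hx, hxr⟩ := exists_approx_add S k (a : K) T hδ
  refine ⟨x, fun v hv => hkv v hv _ ?_, fun φ => hεV φ _ ((hxr φ).trans_le (hδle φ))⟩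
  refine le_trans ?_ (exp_le_exp.2 (neg_le_neg (Int.ofNat_le.2 (Finset.le_sup (f := kv) hv))))
  rw [show algebraMap K (v.adicCompletion K) x - tz v =
    algebraMap K (v.adicCompletion K) (x - a) + algebraMap K (v.adicCompletion K) ((a : K) - b v) +
      (algebraMap K (v.adicCompletion K) (b v : K) - tz v) by rw [map_sub, map_sub]; ring]
  refine Valuation.map_add_le _ (Valuation.map_add_le _ ?_ ?_) (hb v)
  · rw [valued_algebraMap]
    exact hx v hv
  · rw [valued_algebraMap, show (a : K) - b v = ((a : K) / b v - 1) * b v by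
      rw [sub_mul, div_mul_cancel₀ _ (b v).ne_zero, one_mul], map_mul, valuation_eq_exp]
    refine (mul_le_mul' (ha v hv) le_rfl).trans ?_
    rw [← exp_add, exp_le_exp]
    have := Finset.single_le_sum (f := fun v => (-ord v (b v)).toNat)
      (fun _ _ => Nat.zero_le _) hv
    omega

end FA.QuadFormsNF

end
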