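import Fermat.Agent.QuadFormsNF.Small
import Fermat.Agent.QuadForms.Induction
import Mathlib.LinearAlgebra.Matrix.BilinearForm
import Mathlib.LinearAlgebra.QuadraticForm.Basic

/-!
# Every number of variables

From five variables on two coefficients are traded for one by weak approximation at the primes
dividing `2` or one of the other coefficients and at the real places; at every other prime three
coefficients that are units already give a zero.
-/

set_option autoImplicit false
set_option linter.unusedSectionVars false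
set_option linter.style.haveILetI false

noncomputable section

universe u

open NumberField NumberField.InfinitePlace IsDedekindDomain Finset WithZero Filter Topology Matrix
open FA.ArtinRec
open FA.HasseCyclic (locNorms mem_locNorms norm_quadratic exists_conic_point mem_locNorms_iff_dvd)
open FA.QuadForms (Isotropic Iso3 isotropic_three_iff exists_head_value isotropic_option_iff)
open scoped Pointwise nonZeroDivisors Classical

namespace FA.QuadFormsNF

variable {K : Type u} [Field K] [NumberField K]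

/-- A root of an element that is a unit at an odd prime does not ramify there. -/
theorem not_isRam_sqrt_of_unit {L : Type*} [Field L] [NumberField L] [Algebra K L] [IsGalois K L]
    (h2 : Module.finrank K L = 2) {A : Kˣ} {α : L} (hα : α ^ 2 = algebraMap K L A)
    (hnot : ∀ c : K, algebraMap K L c ≠ α) {v : HeightOneSpectrum (𝓞 K)}
    (htwo : (2 : 𝓞 K) ∉ v.asIdeal) (hA : ord v A = 0) : ¬ IsRam L v := by
  rintro ⟨Q, hQ, hne⟩
  refine hne ((Subgroup.eq_bot_iff_forall _).2 fun s hs => ?_)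
  obtain ⟨t, a, ht, ha⟩ := exists_clear (K := K) (L := K) (v := v) (z := (A : K)) fun Q' hQ' => by
    rw [show Q' = v from HeightOneSpectrum.ext
      ((Ideal.comap_id Q'.asIdeal).symm.trans (congrArg HeightOneSpectrum.asIdeal hQ')),
      valuation_eq_exp, hA, neg_zero, exp_zero]
  have ha' : (a : K) = (t : K) * A := ha.symm
  have hav : a ∉ v.asIdeal := fun hm => by
    have h1 : v.valuation K ((a : 𝓞 K) : K) = 1 := by
      rw [ha', map_mul, valuation_eq_exp v A, hA, neg_zero, exp_zero, mul_one,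
        show v.valuation K (t : K) = v.intValuation t from v.valuation_of_algebraMap t]
      exact HeightOneSpectrum.intValuation_eq_one_iff.2 ht
    rw [show v.valuation K (a : K) = v.intValuation a from v.valuation_of_algebraMap a,
      HeightOneSpectrum.intValuation_eq_one_iff] at h1
    exact h1 hm
  -- an integral root
  set β₀ : L := algebraMap K L (t : K) * α with hβ₀
  have hβsq : β₀ ^ 2 = algebraMap (𝓞 L) L (algebraMap (𝓞 K) (𝓞 L) (t * a)) := by
    rw [hβ₀, mul_pow, hα, ← map_pow, ← map_mul]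
    show algebraMap K L ((t : K) ^ 2 * A) = algebraMap K L (algebraMap (𝓞 K) K (t * a))
    rw [map_mul (algebraMap (𝓞 K) K)]
    show algebraMap K L ((t : K) ^ 2 * A) = algebraMap K L ((t : K) * (a : K))
    rw [ha']
    congr 1
    ring
  have hint : IsIntegral ℤ β₀ :=
    IsIntegral.of_pow two_pos (by rw [hβsq]; exact RingOfIntegers.isIntegral_coe _)
  set β : 𝓞 L := ⟨β₀, hint⟩ with hβ
  have hβ2 : β ^ 2 = algebraMap (𝓞 K) (𝓞 L) (t * a) := RingOfIntegers.ext hβsq
  haveI := Q.isPrime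
  have hβQ : β ∉ Q.asIdeal := fun hm => by
    have h1 : algebraMap (𝓞 K) (𝓞 L) (t * a) ∈ Q.asIdeal := by
      rw [← hβ2, sq]
      exact Q.asIdeal.mul_mem_left _ hm
    have h2 : t * a ∈ v.asIdeal := by
      rw [← hQ]
      exact h1
    exact (v.isPrime.mem_or_mem h2).elim ht hav
  have h2Q : (2 : 𝓞 L) ∉ Q.asIdeal := fun hm => htwo (by
    rw [← hQ]
    show algebraMap (𝓞 K) (𝓞 L) 2 ∈ Q.asIdeal
    rw [map_ofNat]
    exact hm)
  have hsα : s α = α := by
    have h1 : s α ^ 2 = α ^ 2 := by rw [← map_pow, hα, s.commutes]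
    rcases sq_eq_sq_iff_eq_or_eq_neg.1 h1 with h | h
    · exact h
    exfalso
    have h3 : s • β - β = -(2 * β) := RingOfIntegers.ext (by
      show s β₀ - β₀ = -(2 * β₀)
      rw [hβ₀, map_mul, s.commutes, h]
      ring)
    have h4 : s • β - β ∈ Q.asIdeal := hs β
    rw [h3, Q.asIdeal.neg_mem_iff] at h4
    exact (Q.isPrime.mem_or_mem h4).elim h2Q hβQ
  refine AlgEquiv.ext fun z => ?_
  obtain ⟨p, q, rfl⟩ := (norm_quadratic h2 hα hnot).2 z
  simp [hsα]

/-- At an odd prime a conic with unit coefficients has a point. -/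
theorem exists_conic_of_units {v : HeightOneSpectrum (𝓞 K)} (htwo : (2 : 𝓞 K) ∉ v.asIdeal)
    {A B : Kˣ} (hA : ord v A = 0) (hB : ord v B = 0) :
    ∃ x y : v.adicCompletion K, algebraMap K (v.adicCompletion K) A * x ^ 2 +
      algebraMap K (v.adicCompletion K) B * y ^ 2 = 1 := by
  set g := algebraMap K (v.adicCompletion K)
  by_cases hsq : IsSquare (A : K)
  · obtain ⟨c, hc⟩ := hsq
    have hc0 : g c ≠ 0 := (map_ne_zero g).2 fun h0 => A.ne_zero (by rw [hc, h0, mul_zero])
    refine ⟨1 / g c, 0, ?_⟩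
    rw [hc, map_mul]
    field_simp
    ring
  obtain ⟨L, _, _, _, _, _, α, h2, hα, hnot⟩ := exists_sqrt_field hsq
  obtain ⟨σ, hσ⟩ := IsCyclic.exists_generator (α := L ≃ₐ[K] L)
  have hmem : B ∈ locNorms L v :=
    (mem_locNorms_iff_dvd hσ (not_isRam_sqrt_of_unit h2 hα hnot htwo hA)).2
      (by rw [hB]; exact dvd_zero _)
  obtain ⟨U, hU, hUsq⟩ := exists_isSquare_mul_near v (one_ne_zero (α := v.adicCompletion K))
  obtain ⟨k, hk⟩ := exists_exp_subset v hU
  obtain ⟨z, hz⟩ := mem_locNorms.1 hmem k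
  obtain ⟨hn, hdec⟩ := norm_quadratic h2 hα hnot
  obtain ⟨p, q, hpq⟩ := hdec (z : L)
  have hne : p ^ 2 - (A : K) * q ^ 2 ≠ 0 := by
    rw [← hn, ← hpq]
    exact Algebra.norm_ne_zero_iff.2 z.ne_zero
  rw [hpq, hn] at hz
  obtain ⟨s, hs0, hs⟩ := hUsq _ (hk (g ((B : K) / (p ^ 2 - A * q ^ 2))) (by
    rwa [← map_one g, ← map_sub, valued_algebraMap]))
  rw [one_mul, map_div₀, div_eq_iff ((map_ne_zero g).2 hne)] at hs
  refine exists_conic_point (two_ne_zero_completion v) ((map_ne_zero g).2 A.ne_zero)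
    ((map_ne_zero g).2 B.ne_zero) (p := g p * s) (q := g q * s) ?_
  rw [hs, map_sub, map_mul, map_pow, map_pow]
  ring

/-- Outside a finite set of primes three coefficients already give a zero. -/
theorem isotropic_three_of_units {v : HeightOneSpectrum (𝓞 K)} (htwo : (2 : 𝓞 K) ∉ v.asIdeal)
    (a b c : Kˣ) (ha : ord v a = 0) (hb : ord v b = 0) (hc : ord v c = 0) :
    Isotropic ![algebraMap K (v.adicCompletion K) a, algebraMap K (v.adicCompletion K) b,
      algebraMap K (v.adicCompletion K) c] := by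
  have hneg : ∀ x : Kˣ, ord v (-x) = ord v x := fun x => by
    rw [ord_eq_iff, Units.val_neg, Valuation.map_neg, valuation_eq_exp]
  rw [isotropic_three_iff ((map_ne_zero _).2 c.ne_zero)]
  obtain ⟨x, y, h⟩ := exists_conic_of_units htwo (A := -a / c) (B := -b / c)
    (by rw [ord_div, hneg, ha, hc, sub_zero]) (by rw [ord_div, hneg, hb, hc, sub_zero])
  rw [Units.val_div_eq_div_val, Units.val_div_eq_div_val, Units.val_neg, Units.val_neg, map_div₀,
    map_div₀, map_neg, map_neg] at h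
  exact iso3_of_conic h

theorem exists_prime : Nonempty (HeightOneSpectrum (𝓞 K)) := by
  obtain ⟨M, hM⟩ := Ideal.exists_maximal (𝓞 K)
  exact ⟨⟨M, hM.isPrime, Ring.ne_bot_of_isMaximal_of_not_isField hM
    (RingOfIntegers.not_isField K)⟩⟩

/-- A form with a zero can have its first two variables traded, over any field. -/
theorem exists_head {F : Type*} [Field F] [CharZero F] {n : ℕ} (hn : 0 < n) {a b : F}
    {g : Fin n → F} (ha : a ≠ 0) (hb : b ≠ 0) (hg : ∀ i, g i ≠ 0)
    (h : Isotropic (Fin.cons a (Fin.cons b g : Fin (n + 1) → F) : Fin (n + 2) → F)) :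
    ∃ X Y : F, a * X ^ 2 + b * Y ^ 2 ≠ 0 ∧
      Isotropic (Fin.cons (a * X ^ 2 + b * Y ^ 2) g : Fin (n + 1) → F) := by
  by_cases hgi : Isotropic g
  · refine ⟨1, 0, by simpa using ha, ?_⟩
    exact Isotropic.of_injective Fin.succ (Fin.succ_injective _) (by simpa using hgi)
  · exact exists_head_value hn ha hb hg h hgi

/-- Scaling the first coefficient by a square. -/
theorem isotropic_head_mul_sq {F : Type*} [Field F] {n : ℕ} {c s : F} {g : Fin n → F} (hs : s ≠ 0)
    (h : Isotropic (Fin.cons c g : Fin (n + 1) → F)) :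
    Isotropic (Fin.cons (c * s ^ 2) g : Fin (n + 1) → F) := by
  refine Isotropic.of_sq (Fin.cons s⁻¹ 1) (Fin.cases (inv_ne_zero hs) fun i => one_ne_zero) ?_ h
  refine Fin.cases ?_ fun i => ?_
  · simp [hs]
  · simp

/-- The neighbourhoods for a head value. -/
theorem exists_boxes {F : Type*} [Field F] [TopologicalSpace F] [IsTopologicalRing F] {a b X Y : F}
    {U : Set F} (hU : U ∈ 𝓝 (a * X ^ 2 + b * Y ^ 2)) :
    ∃ U₁ ∈ 𝓝 X, ∃ U₂ ∈ 𝓝 Y, ∀ x ∈ U₁, ∀ y ∈ U₂, a * x ^ 2 + b * y ^ 2 ∈ U := by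
  have hc : Continuous fun z : F × F => a * z.1 ^ 2 + b * z.2 ^ 2 := by fun_prop
  obtain ⟨U₁, h1, U₂, h2, hsub⟩ :=
    mem_nhds_prod_iff.1 (hc.continuousAt.preimage_mem_nhds (x := (X, Y)) hU)
  exact ⟨U₁, h1, U₂, h2, fun x hx y hy => hsub (Set.mk_mem_prod hx hy)⟩

theorem map_cons {F G : Type*} [Semiring F] [Semiring G] (f : F →+* G) {n : ℕ} (c : F)
    (g : Fin n → F) :
    (fun i => f ((Fin.cons c g : Fin (n + 1) → F) i)) = Fin.cons (f c) fun i => f (g i) :=
  funext (Fin.cases (by simp) fun i => by simp)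

/-- **The reduction step.** -/
theorem exists_reduction {n : ℕ} (hn : 3 ≤ n) {a b : K} (ha : a ≠ 0) (hb : b ≠ 0) (g : Fin n → K)
    (hg : ∀ i, g i ≠ 0)
    (h : LocallyIsotropic (Fin.cons a (Fin.cons b g : Fin (n + 1) → K) : Fin (n + 2) → K)) :
    ∃ X Y : K, a * X ^ 2 + b * Y ^ 2 ≠ 0 ∧
      LocallyIsotropic (Fin.cons (a * X ^ 2 + b * Y ^ 2) g : Fin (n + 1) → K) := by
  let gu : Fin n → Kˣ := fun i => Units.mk0 (g i) (hg i)
  obtain ⟨v₀⟩ := exists_prime (K := K)
  have hfin2 : {v : HeightOneSpectrum (𝓞 K) | (2 : 𝓞 K) ∈ v.asIdeal}.Finite :=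
    (Ideal.finite_factors (I := Ideal.span {(2 : 𝓞 K)}) (by simp)).subset fun v hv =>
      Ideal.dvd_span_singleton.2 hv
  set S : Finset (HeightOneSpectrum (𝓞 K)) := {v₀} ∪ hfin2.toFinset ∪
    univ.biUnion fun i => (finite_ord_ne_zero (gu i)).toFinset with hS
  have hat : ∀ v : HeightOneSpectrum (𝓞 K), ∃ U₁ U₂ : Set (v.adicCompletion K),
      (∃ z, U₁ ∈ 𝓝 z) ∧ (∃ z, U₂ ∈ 𝓝 z) ∧ ∀ x y : K,
        algebraMap K (v.adicCompletion K) x ∈ U₁ → algebraMap K (v.adicCompletion K) y ∈ U₂ →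
          a * x ^ 2 + b * y ^ 2 ≠ 0 ∧ Isotropic fun i => algebraMap K (v.adicCompletion K)
            ((Fin.cons (a * x ^ 2 + b * y ^ 2) g : Fin (n + 1) → K) i) := fun v => by
    haveI := charZero_completion v
    set f := algebraMap K (v.adicCompletion K)
    have h1 := h.1 v
    rw [map_cons, map_cons] at h1
    obtain ⟨X, Y, hne, hiso⟩ := exists_head (by omega) ((map_ne_zero f).2 ha) ((map_ne_zero f).2 hb)
      (fun i => (map_ne_zero f).2 (hg i)) h1
    obtain ⟨U, hU, hUsq⟩ := exists_isSquare_mul_near v hne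
    obtain ⟨U₁, hU₁, U₂, hU₂, hbox⟩ := exists_boxes hU
    refine ⟨U₁, U₂, ⟨X, hU₁⟩, ⟨Y, hU₂⟩, fun x y hx hy => ?_⟩
    obtain ⟨s, hs, he⟩ := hUsq _ (hbox _ hx _ hy)
    have he' : f (a * x ^ 2 + b * y ^ 2) = (f a * X ^ 2 + f b * Y ^ 2) * s ^ 2 := by
      rw [map_add, map_mul, map_mul, map_pow, map_pow, he]
    refine ⟨fun h0 => mul_ne_zero hne (pow_ne_zero 2 hs) (by rw [← he', h0, map_zero]), ?_⟩
    rw [map_cons, he']
    exact isotropic_head_mul_sq hs hiso
  have hreal : ∀ φ : K →+* ℝ, ∃ V₁ V₂ : Set ℝ, (∃ t, V₁ ∈ 𝓝 t) ∧ (∃ t, V₂ ∈ 𝓝 t) ∧ ∀ x y : K,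
      φ x ∈ V₁ → φ y ∈ V₂ → Isotropic fun i => φ
        ((Fin.cons (a * x ^ 2 + b * y ^ 2) g : Fin (n + 1) → K) i) := fun φ => by
    have h1 := h.2 φ
    rw [map_cons, map_cons] at h1
    obtain ⟨X, Y, hne, hiso⟩ := exists_head (by omega) ((map_ne_zero φ).2 ha) ((map_ne_zero φ).2 hb)
      (fun i => (map_ne_zero φ).2 (hg i)) h1
    obtain ⟨U, hU, hUsq⟩ : ∃ U ∈ 𝓝 (φ a * X ^ 2 + φ b * Y ^ 2), ∀ t ∈ U,
        ∃ s : ℝ, s ≠ 0 ∧ t = (φ a * X ^ 2 + φ b * Y ^ 2) * s ^ 2 := by
      refine ⟨{t | 0 < t / (φ a * X ^ 2 + φ b * Y ^ 2)}, ?_, fun t ht => ?_⟩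
      · exact (isOpen_lt continuous_const (continuous_id.div_const _)).mem_nhds
          (show (0 : ℝ) < id _ / _ by rw [id, div_self hne]; exact one_pos)
      · exact ⟨Real.sqrt (t / (φ a * X ^ 2 + φ b * Y ^ 2)), (Real.sqrt_pos.2 ht).ne', by
          rw [Real.sq_sqrt (le_of_lt ht), mul_div_cancel₀ _ hne]⟩
    obtain ⟨U₁, hU₁, U₂, hU₂, hbox⟩ := exists_boxes hU
    refine ⟨U₁, U₂, ⟨X, hU₁⟩, ⟨Y, hU₂⟩, fun x y hx hy => ?_⟩
    obtain ⟨s, hs, he⟩ := hUsq _ (hbox _ hx _ hy)
    rw [map_cons, map_add, map_mul, map_mul, map_pow, map_pow, he]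
    exact isotropic_head_mul_sq hs hiso
  choose U₁ U₂ hU₁ hU₂ hU using hat
  choose V₁ V₂ hV₁ hV₂ hV using hreal
  obtain ⟨x, hx, hxr⟩ := exists_weak_approx S U₁ (fun v _ => hU₁ v) V₁ hV₁
  obtain ⟨y, hy, hyr⟩ := exists_weak_approx S U₂ (fun v _ => hU₂ v) V₂ hV₂
  have hv₀ : v₀ ∈ S := by simp [hS]
  refine ⟨x, y, (hU v₀ x y (hx v₀ hv₀) (hy v₀ hv₀)).1, fun v => ?_,
    fun φ => hV φ x y (hxr φ) (hyr φ)⟩
  by_cases hv : v ∈ S
  · exact (hU v x y (hx v hv) (hy v hv)).2
  · simp only [hS, Finset.mem_union, Finset.mem_biUnion, Set.Finite.mem_toFinset, Set.mem_ofPred_eq,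
      Finset.mem_singleton, Finset.mem_univ, true_and, not_or, not_exists, not_not] at hv
    rw [map_cons]
    refine Isotropic.of_injective
      (Fin.succ ∘ ![(⟨0, by omega⟩ : Fin n), ⟨1, by omega⟩, ⟨2, by omega⟩])
      ((Fin.succ_injective _).comp ?_) ?_
    · intro i j h
      fin_cases i <;> fin_cases j <;> simp_all
    · have h3 := isotropic_three_of_units hv.1.2 (gu ⟨0, by omega⟩) (gu ⟨1, by omega⟩)
        (gu ⟨2, by omega⟩) (hv.2 _) (hv.2 _) (hv.2 _)
      simp only [Function.comp_apply, Fin.cons_succ]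
      convert h3 using 1
      funext i
      fin_cases i <;> rfl

theorem isotropic_of_local_aux : ∀ (n : ℕ) (c : Fin n → K), (∀ i, c i ≠ 0) →
    LocallyIsotropic c → Isotropic c
  | 0, c, _, h => by
    obtain ⟨v⟩ := exists_prime (K := K)
    obtain ⟨x, hx, -⟩ := h.1 v
    exact absurd (Subsingleton.elim x 0) hx
  | 1, c, hc, h => by
    obtain ⟨v⟩ := exists_prime (K := K)
    obtain ⟨x, hx, he⟩ := h.1 v
    simp [hc 0] at he
    exact absurd (funext fun i => by rw [Subsingleton.elim i 0, he]; rfl) hx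
  | 2, c, hc, h => isotropic_two_of_local hc h
  | 3, c, hc, h => by
    have e : c = ![c 0, c 1, c 2] := by funext i; fin_cases i <;> rfl
    rw [e] at h ⊢
    exact isotropic_three_of_local (hc 0) (hc 1) (hc 2) h
  | 4, c, hc, h => isotropic_four_of_local hc h
  | n + 5, c, hc, h => by
    set g : Fin (n + 3) → K := fun i => c i.succ.succ
    have e : c = (Fin.cons (c 0) (Fin.cons (c (Fin.succ 0)) g : Fin (n + 4) → K) :
        Fin (n + 5) → K) := by
      funext i
      refine Fin.cases ?_ (fun j => ?_) i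
      · simp
      · refine Fin.cases ?_ (fun k => ?_) j <;> simp [g]
    rw [e] at h
    obtain ⟨A, B, hT, hloc⟩ := exists_reduction (by omega) (hc 0) (hc _) g (fun i => hc _) h
    obtain ⟨z, hz, hze⟩ := isotropic_of_local_aux (n + 4) _ (fun i => by
      refine Fin.cases ?_ (fun j => ?_) i
      · simpa using hT
      · simpa using hc _) hloc
    simp only [Fin.sum_univ_succ, Fin.cons_zero, Fin.cons_succ] at hze
    set x : Fin (n + 5) → K :=
      (Fin.cons (A * z 0) (Fin.cons (B * z 0) (fun i => z i.succ) : Fin (n + 4) → K))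
      with hx
    rw [e]
    refine ⟨x, fun h0 => ?_, ?_⟩
    · have h1 : ∀ i : Fin (n + 3), z i.succ = 0 := fun i => by
        simpa [hx] using congrFun h0 i.succ.succ
      refine hz (funext fun i => Fin.cases ?_ h1 i)
      have e0 := congrFun h0 0
      have e1 := congrFun h0 (Fin.succ 0)
      by_contra hz0
      simp [hx, show z 0 ≠ 0 from hz0] at e0 e1
      exact hT (by rw [e0, e1]; ring)
    · simp only [hx, Fin.sum_univ_succ, Fin.cons_zero, Fin.cons_succ]
      linear_combination hze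

/-- **The theorem of Hasse and Minkowski for diagonal forms over a number field.** -/
theorem isotropic_iff_local {ι : Type*} [Fintype ι] (a : ι → K) :
    Isotropic a ↔ LocallyIsotropic a := by
  constructor
  · exact fun h => ⟨fun v => h.map _, fun φ => h.map φ⟩
  intro h
  by_cases hz : ∃ i, a i = 0
  · obtain ⟨i, hi⟩ := hz
    exact Isotropic.of_eq_zero hi
  push Not at hz
  set e := Fintype.equivFin ι
  have hl : LocallyIsotropic fun i => a (e.symm i) :=
    ⟨fun v => Isotropic.of_injective (a := fun i => algebraMap K (v.adicCompletion K) (a (e.symm i)))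
        e e.injective (by simpa using h.1 v),
      fun φ => Isotropic.of_injective (a := fun i => φ (a (e.symm i))) e e.injective
        (by simpa using h.2 φ)⟩
  exact Isotropic.of_injective e.symm e.symm.injective
    (isotropic_of_local_aux _ _ (fun i => hz _) hl)

/-! ### Arbitrary matrices -/

variable {n : Type*} [Fintype n] [DecidableEq n]

/-- The symmetrisation. -/
def symHalf (M : Matrix n n K) : Matrix n n K := (2 : K)⁻¹ • (M + Mᵀ)

/-- `x ↦ xᵀ M x` has a non-trivial zero after the extension `f`. -/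
def MatrixIsotropicAt {F : Type*} [Field F] (f : K →+* F) (M : Matrix n n K) : Prop :=
  ∃ x : n → F, x ≠ 0 ∧ x ⬝ᵥ (M.map f) *ᵥ x = 0

omit [DecidableEq n] in
theorem dotProduct_symHalf {F : Type*} [Field F] (f : K →+* F) (h2 : (2 : F) ≠ 0)
    (M : Matrix n n K) (x : n → F) :
    x ⬝ᵥ ((symHalf M).map f) *ᵥ x = x ⬝ᵥ (M.map f) *ᵥ x := by
  have h : (symHalf M).map f = (2 : F)⁻¹ • (M.map f + (M.map f)ᵀ) := by
    ext i j
    simp [symHalf, mul_add, map_ofNat]
  rw [h, smul_mulVec, dotProduct_smul, add_mulVec, dotProduct_add, dotProduct_transpose_mulVec,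
    smul_eq_mul]
  rw [← two_mul, ← mul_assoc, inv_mul_cancel₀ h2, one_mul]

/-- A diagonalisation with its inverse. -/
theorem exists_diagonalisation_NF (M : Matrix n n K) :
    ∃ (d : ℕ) (w : Fin d → K) (P : Matrix (Fin d) n K) (R : Matrix n (Fin d) K),
      R * P = 1 ∧ P * R = 1 ∧ Pᵀ * Matrix.diagonal w * P = symHalf M := by
  set B : LinearMap.BilinForm K (n → K) := Matrix.toBilin' (symHalf M)
  have hB : LinearMap.IsSymm B := by
    refine ⟨fun x y => ?_⟩
    change B x y = B y x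
    simp only [B, Matrix.toBilin'_apply']
    have hS : (symHalf M)ᵀ = symHalf M := by
      rw [symHalf, transpose_smul, transpose_add, transpose_transpose, add_comm]
    conv_rhs => rw [← hS, dotProduct_transpose_mulVec]
  haveI : Invertible (2 : K) := invertibleOfNonzero two_ne_zero
  obtain ⟨v, hv⟩ := LinearMap.BilinForm.exists_orthogonal_basis hB
  set P := v.toMatrix (Pi.basisFun K n)
  set R := (Pi.basisFun K n).toMatrix v
  have hRP : R * P = 1 := Module.Basis.toMatrix_mul_toMatrix_flip _ _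
  have hPR : P * R = 1 := Module.Basis.toMatrix_mul_toMatrix_flip _ _
  set w := fun i => B (v i) (v i)
  have hM : Pᵀ * Matrix.diagonal w * P = symHalf M := by
    have hdiag : LinearMap.BilinForm.toMatrix v B = Matrix.diagonal fun i => B (v i) (v i) := by
      ext i j
      rw [LinearMap.BilinForm.toMatrix_apply, Matrix.diagonal_apply]
      split_ifs with h
      · rw [h]
      · exact hv h
    rw [← hdiag, LinearMap.BilinForm.toMatrix_mul_basis_toMatrix,
      LinearMap.BilinForm.toMatrix_basisFun]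
    simp [B]
  exact ⟨_, w, P, R, hRP, hPR, hM⟩

/-- Isotropy of the matrix is that of the diagonal, in every extension. -/
theorem matrixIsotropicAt_iff {M : Matrix n n K} {d : ℕ} {w : Fin d → K}
    {P : Matrix (Fin d) n K} {R : Matrix n (Fin d) K} (hRP : R * P = 1) (hPR : P * R = 1)
    (hM : Pᵀ * Matrix.diagonal w * P = symHalf M) {F : Type*} [Field F] (f : K →+* F)
    (h2 : (2 : F) ≠ 0) : MatrixIsotropicAt f M ↔ Isotropic fun i => f (w i) := by
  have hval : ∀ x : n → F,
      x ⬝ᵥ (M.map f) *ᵥ x = ∑ i, f (w i) * ((P.map f) *ᵥ x) i ^ 2 := by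
    intro x
    rw [← dotProduct_symHalf f h2 M x, ← hM, Matrix.map_mul, Matrix.map_mul,
      Matrix.diagonal_map (map_zero f), ← Matrix.mulVec_mulVec, ← Matrix.mulVec_mulVec,
      Matrix.transpose_map, dotProduct_transpose_mulVec]
    simp only [dotProduct, mulVec_diagonal]
    exact sum_congr rfl fun i _ => by ring
  constructor
  · rintro ⟨x, hx, he⟩
    refine ⟨(P.map f) *ᵥ x, fun h0 => hx ?_, (hval x).symm.trans he⟩
    have := congrArg (fun y => (R.map f) *ᵥ y) h0
    simpa [Matrix.mulVec_mulVec, ← Matrix.map_mul, hRP] using this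
  · rintro ⟨y, hy, he⟩
    refine ⟨(R.map f) *ᵥ y, fun h0 => hy ?_, (hval _).trans ?_⟩
    · have := congrArg (fun x => (P.map f) *ᵥ x) h0
      simpa [Matrix.mulVec_mulVec, ← Matrix.map_mul, hPR] using this
    · rw [Matrix.mulVec_mulVec, ← Matrix.map_mul, hPR]
      simpa using he

end FA.QuadFormsNF

end
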