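import Fermat.Agent.QuadFormsNF.Main
import Fermat.Agent.ExistenceTheorem.Uniqueness

/-!
# Reciprocity for the local norms

In the count for the norm theorem every place with nontrivial local index survives in the global
classes, since otherwise the extension would be the class field of a group that splits or does not
ramify the place.  For quadratic extensions the places where an element is no local norm are hence
even in number.
-/

set_option autoImplicit false
set_option linter.unusedSectionVars false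
set_option linter.style.haveILetI false

noncomputable section

universe u

open NumberField NumberField.InfinitePlace IsDedekindDomain Finset WithZero
open FA.Hecke (IsRayElt coprimeIdeals RayClassGroup rayClass rayClass_eq_iff rayClass_surjective
  finite_rayClassGroup)
open FA.Ext (primeIdeal)
open FA.ArtinRec
open FA.HasseCyclic (nearOne locNorms locNorms_index_ne_zero normU'_mem_locNorms
  exists_nearOne_le_locNorms finIdx_le_index_locNorms locNorms_index_eq card_locClasses_le
  exists_good_set norm_pos_of_ramified mem_locNorms mem_locNorms_iff_dvd norm_quadratic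
  isUnramifiedIn_of_pos exists_conic_point exists_form_eq ord_eq_zero_of_nearOne)
open scoped Pointwise nonZeroDivisors Classical

namespace FA.QuadFormsNF

variable {K : Type u} [Field K] [NumberField K] {L : Type*} [Field L] [NumberField L]
  [Algebra K L] [IsGalois K L]

section components

variable {T : Finset (HeightOneSpectrum (𝓞 K))}
  {N : InfinitePlace K ⊕ {v // v ∈ T} → Subgroup Kˣ}

/-- An element at one place. -/
def singleLoc (i : InfinitePlace K ⊕ {v // v ∈ T}) (x : Kˣ ⧸ N i) : LocProd T N :=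
  fun j => Pi.mulSingle (M := fun j => Kˣ ⧸ N j) i x j

theorem prod_singleLoc (f : LocProd T N) : ∏ i, singleLoc i (f i) = f :=
  LocProd.ext fun j => by
    show ((∏ i, singleLoc i (f i)) : (j : InfinitePlace K ⊕ {v // v ∈ T}) → Kˣ ⧸ N j) j = f j
    exact congrFun (Finset.univ_prod_mulSingle (M := fun j => Kˣ ⧸ N j) f) j

theorem singleLoc_one (i : InfinitePlace K ⊕ {v // v ∈ T}) :
    singleLoc i (1 : Kˣ ⧸ N i) = 1 :=
  LocProd.ext fun j => congrFun (Pi.mulSingle_one (M := fun j => Kˣ ⧸ N j) i) j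

theorem mk_eq_one_of_components (f : LocProd T N)
    (h : ∀ i, (QuotientGroup.mk (singleLoc i (f i)) : LocClasses T N) = 1) :
    (QuotientGroup.mk f : LocClasses T N) = 1 := by
  conv_lhs => rw [← prod_singleLoc f]
  rw [QuotientGroup.mk_prod]
  exact Finset.prod_eq_one fun i _ => h i

/-- Only the places in `good` need a congruence. -/
theorem idealClass_eq_one_of_good (hcl : IsClassSet T) {I : Ideal (𝓞 K)} (hI : I ≠ ⊥) {a : Kˣ}
    (ha : ∀ w, w ∉ T → ord w a = ordI w I) (good : Set (InfinitePlace K ⊕ {v // v ∈ T}))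
    (hex : ∀ i ∉ good, ∀ x : Kˣ ⧸ N i, (QuotientGroup.mk (singleLoc i x) : LocClasses T N) = 1)
    (hinf : ∀ v : InfinitePlace K, Sum.inl v ∈ good → a ∈ N (Sum.inl v))
    (hfin : ∀ v : {v // v ∈ T}, Sum.inr v ∈ good → unif v.1 ^ ordI v.1 I / a ∈ N (Sum.inr v)) :
    idealClass N hcl I = 1 := by
  rw [idealClass_eq N hcl hI ha]
  refine mk_eq_one_of_components _ fun i => ?_
  by_cases hi : i ∈ good
  · rw [show (expo T N I / diag T N a) i = 1 from ?_, singleLoc_one, QuotientGroup.mk_one]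
    rcases i with v | v
    · show (QuotientGroup.mk (1 : Kˣ) : Kˣ ⧸ N (Sum.inl v)) / QuotientGroup.mk a = 1
      rw [(QuotientGroup.eq_one_iff a).2 (hinf v hi), QuotientGroup.mk_one, div_one]
    · show (QuotientGroup.mk (unif v.1 ^ ordI v.1 I) : Kˣ ⧸ N (Sum.inr v)) / QuotientGroup.mk a = 1
      rw [← QuotientGroup.mk_div, (QuotientGroup.eq_one_iff _).2 (hfin v hi)]
  · exact hex i hi _

/-- **The kernel with exempt places.** -/
theorem exists_kernel_exempt (hcl : IsClassSet T) (hclL : IsClassSet (primesAbove L T))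
    [∀ i, Finite (Kˣ ⧸ N i)] (hnorm : ∀ i, ∀ x : Lˣ, normU' x ∈ N i)
    (hinf : ∀ v : InfinitePlace K, ∀ a : Kˣ,
      (∀ h : IsReal v, 0 < embedding_of_isReal h (a : K)) → a ∈ N (Sum.inl v))
    (k : {v // v ∈ T} → ℕ) (hfin : ∀ v : {v // v ∈ T}, nearOne v.1 (k v) ≤ N (Sum.inr v))
    (good : Set (InfinitePlace K ⊕ {v // v ∈ T}))
    (hex : ∀ i ∉ good, ∀ x : Kˣ ⧸ N i, (QuotientGroup.mk (singleLoc i x) : LocClasses T N) = 1) :
    ∃ (𝔪 : Ideal (𝓞 K)) (h𝔪 : 𝔪 ≠ ⊥) (H : Subgroup (RayClassGroup 𝔪)),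
      (∀ v : {v // v ∈ T}, Sum.inr v ∉ good →
        ∃ hv : v.1.asIdeal ⊔ 𝔪 = ⊤, rayClass h𝔪 ⟨primeIdeal v.1, hv⟩ ∈ H) ∧
      semiClasses h𝔪 {w | Sum.inl w ∈ good} ≤ H ∧ normClasses L h𝔪 ≤ H ∧
      H.index = Nat.card (LocClasses T N) := by
  have hsurj : Function.Surjective (diag T N) :=
    diag_surjective T N (fun v => k v + 1) hinf fun v a ha => hfin v ha
  set R : Finset {v // v ∈ T} := Finset.univ.filter fun v => Sum.inr v ∈ good with hR
  set 𝔪 : Ideal (𝓞 K) := ∏ v ∈ R, v.1.asIdeal ^ (k v + 1) with h𝔪def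
  have h𝔪 : 𝔪 ≠ ⊥ := Finset.prod_ne_zero_iff.2 fun v _ => pow_ne_zero _ v.1.ne_bot
  have hdvd : ∀ v : HeightOneSpectrum (𝓞 K), v.asIdeal ∣ 𝔪 → ∃ u ∈ R, v = u.1 := fun v hv => by
    obtain ⟨u, hu, hd⟩ := v.prime.exists_mem_finset_dvd hv
    exact ⟨u, hu, HeightOneSpectrum.ext
      ((prime_dvd_prime_iff_eq v.prime u.1.prime).1 (v.prime.dvd_of_dvd_pow hd))⟩
  have hfac : ∀ u ∈ R, u.1.asIdeal ^ (k u + 1) ∣ 𝔪 := fun u hu =>
    Finset.dvd_prod_of_mem (fun v : {v // v ∈ T} => v.1.asIdeal ^ (k v + 1)) hu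
  have hordR : ∀ (I : Ideal (𝓞 K)), I ⊔ 𝔪 = ⊤ → ∀ u ∈ R, ordI u.1 I = 0 := fun I hI u hu =>
    coprime_iff_ordI.1 hI u.1 ((dvd_pow_self _ (k u).succ_ne_zero).trans (hfac u hu))
  let Φ : coprimeIdeals 𝔪 →* LocClasses T N :=
    MonoidHom.mk' (fun I => idealClass N hcl I.1.1) fun I J =>
      idealClass_mul N hcl (nonZeroDivisors.coe_ne_zero I.1) (nonZeroDivisors.coe_ne_zero J.1)
  have hray : ∀ x : 𝓞 K, IsSemiRay 𝔪 {w | Sum.inl w ∈ good} x →
      idealClass N hcl (Ideal.span {x}) = 1 := by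
    intro x hx
    obtain ⟨hx0, hx1, hxp⟩ := id hx
    refine idealClass_eq_one_of_good hcl (by simpa using hx0) (a := intU x hx0)
      (fun w _ => ord_intU_eq_ordI w hx0) good hex (fun v hv => hinf v _ fun h => hxp v hv h)
      fun v hv => ?_
    have hvR : v ∈ R := Finset.mem_filter.2 ⟨Finset.mem_univ _, hv⟩
    have hmem : x - 1 ∈ v.1.asIdeal ^ (k v + 1) := Ideal.le_of_dvd (hfac v hvR) hx1
    have hle := (v.1.intValuation_le_pow_iff_mem _ _).2 hmem
    rw [← v.1.valuation_of_algebraMap (K := K)] at hle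
    replace hle : v.1.valuation K (algebraMap (𝓞 K) K (x - 1)) ≤ exp (-((k v + 1 : ℕ) : ℤ)) :=
      hle
    rw [map_sub, map_one] at hle
    rw [hordR _ hx.sup_eq_top v hvR, pow_zero, one_div]
    exact inv_mem (hfin v hle)
  have hpos : ∀ x : 𝓞 K, IsRayElt 𝔪 x → idealClass N hcl (Ideal.span {x}) = 1 :=
    fun x hx => hray x ⟨hx.1, hx.2.1, fun w _ h => hx.2.2 _⟩
  have hwell : ∀ I J, rayClass h𝔪 I = rayClass h𝔪 J → Φ I = Φ J := fun I J hIJ => by
    obtain ⟨x, y, hx, hy, hxy⟩ := (rayClass_eq_iff h𝔪).1 hIJ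
    show idealClass N hcl I.1.1 = idealClass N hcl J.1.1
    have h := congrArg (idealClass N hcl) hxy
    rwa [idealClass_mul N hcl (by simpa using hx.1) (nonZeroDivisors.coe_ne_zero I.1),
      idealClass_mul N hcl (by simpa using hy.1) (nonZeroDivisors.coe_ne_zero J.1),
      hpos x hx, hpos y hy, one_mul, one_mul] at h
  let Ψ := rayLift h𝔪 Φ hwell
  have hΨ : ∀ I, Ψ (rayClass h𝔪 I) = Φ I := fun I => rayLift_apply _ _ _ _
  have hΨsurj : Function.Surjective Ψ := fun γ => by
    obtain ⟨I, hI, hIm, rfl⟩ := exists_idealClass_eq N hcl hsurj (𝔪 := 𝔪) (fun v hv => by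
      obtain ⟨u, -, rfl⟩ := hdvd v hv
      exact u.2) γ
    exact ⟨_, hΨ ⟨⟨I, mem_nonZeroDivisors_iff_ne_zero.mpr hI⟩, hIm⟩⟩
  refine ⟨𝔪, h𝔪, Ψ.ker, fun v hv => ?_, ?_, ?_, ?_⟩
  · have hc : v.1.asIdeal ⊔ 𝔪 = ⊤ := (sup_eq_top_iff_not_le _ 𝔪).2 fun hle => by
      obtain ⟨u, hu, he⟩ := hdvd v.1 (Ideal.dvd_iff_le.2 hle)
      rw [Subtype.ext he] at hv
      exact hv (Finset.mem_filter.1 hu).2
    refine ⟨hc, ?_⟩
    rw [MonoidHom.mem_ker, hΨ]
    show idealClass N hcl v.1.asIdeal = 1
    refine idealClass_eq_one_of_good hcl v.1.ne_bot (a := 1) (fun w hw => ?_) good hex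
      (fun _ _ => one_mem _) fun u hu => ?_
    · rw [ord_one, ordI_prime, if_neg fun h => hw (by rw [h]; exact v.2), Nat.cast_zero]
    · rw [ordI_prime, if_neg fun h => hv (by rwa [← Subtype.ext h]), pow_zero, div_one]
      exact one_mem _
  · rw [semiClasses, Subgroup.closure_le]
    rintro _ ⟨x, hx, rfl⟩
    rw [SetLike.mem_coe, MonoidHom.mem_ker, hΨ]
    exact hray x hx
  · rw [normClasses, Subgroup.closure_le]
    rintro _ ⟨Q, hQ, rfl⟩
    rw [SetLike.mem_coe, MonoidHom.mem_ker, hΨ]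
    show idealClass N hcl (Ideal.relNorm (𝓞 K) Q.asIdeal) = 1
    obtain ⟨x, hx⟩ := hclL Q
    refine idealClass_eq_one_of_good hcl (relNorm_ne_bot Q.ne_bot) (a := normU' x) (fun w hw => ?_)
      good hex (fun u _ => hnorm _ x) fun u hu => ?_
    · rw [ord_normU', ordI_relNorm w Q.ne_bot]
      push_cast
      congr 1
      refine Finset.sum_congr rfl fun Q' hQ' => ?_
      rw [hx Q' (by rwa [mem_primesAbove, (finite_belowP (L := L) w).mem_toFinset.1 hQ']),
        ordI_prime]
      split_ifs <;> rfl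
    · rw [hordR (Ideal.relNorm (𝓞 K) Q.asIdeal) hQ u (Finset.mem_filter.2 ⟨Finset.mem_univ _, hu⟩), pow_zero]
      exact div_mem (one_mem _) (hnorm _ x)
  · rw [Subgroup.index_ker, MonoidHom.range_eq_top.2 hΨsurj,
      Nat.card_congr Subgroup.topEquiv.toEquiv]

end components

variable (L) in
/-- Positive at a ramified real place. -/
def infNorms (w : InfinitePlace K) : Subgroup Kˣ where
  carrier := {a | ∀ h : IsReal w, ¬ w.IsUnramifiedIn L → 0 < embedding_of_isReal h (a : K)}
  one_mem' h _ := by simp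
  mul_mem' {a b} ha hb h hr := by
    rw [Units.val_mul, map_mul]
    exact mul_pos (ha h hr) (hb h hr)
  inv_mem' {a} ha h hr := by
    rw [Units.val_inv_eq_inv_val, map_inv₀]
    exact inv_pos.2 (ha h hr)

theorem mem_infNorms {w : InfinitePlace K} {a : Kˣ} :
    a ∈ infNorms L w ↔
      ∀ h : IsReal w, ¬ w.IsUnramifiedIn L → 0 < embedding_of_isReal h (a : K) := Iff.rfl

theorem div_mem_infNorms {w : InfinitePlace K} {a b : Kˣ} (ha : a ∉ infNorms L w)
    (hb : b ∉ infNorms L w) : a / b ∈ infNorms L w := fun h hr => by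
  rw [mem_infNorms] at ha hb
  push Not at ha hb
  obtain ⟨_, -, ha⟩ := ha
  obtain ⟨_, -, hb⟩ := hb
  rw [Units.val_div_eq_div_val, map_div₀]
  exact div_pos_of_neg_of_neg (lt_of_le_of_ne ha (by simp)) (lt_of_le_of_ne hb (by simp))

theorem finite_quotient_infNorms (w : InfinitePlace K) : Finite (Kˣ ⧸ infNorms L w) := by
  refine Finite.of_injective (fun c => (decide (c = 1) : Bool)) fun c d h => ?_
  simp only [decide_eq_decide] at h
  by_cases hc : c = 1
  · rw [hc, h.1 hc]
  · obtain ⟨a, rfl⟩ := QuotientGroup.mk_surjective c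
    obtain ⟨b, rfl⟩ := QuotientGroup.mk_surjective d
    rw [QuotientGroup.eq_iff_div_mem]
    exact div_mem_infNorms (fun ha => hc ((QuotientGroup.eq_one_iff a).2 ha))
      fun hb => hc (h.2 ((QuotientGroup.eq_one_iff b).2 hb))

variable (L) in
/-- The local norm groups at a set of places. -/
def locGroups (T : Finset (HeightOneSpectrum (𝓞 K))) :
    InfinitePlace K ⊕ {v // v ∈ T} → Subgroup Kˣ :=
  Sum.elim (infNorms L) fun v => locNorms L v.1

instance instFiniteLocGroups (T : Finset (HeightOneSpectrum (𝓞 K)))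
    (i : InfinitePlace K ⊕ {v // v ∈ T}) : Finite (Kˣ ⧸ locGroups L T i) := by
  rcases i with w | v
  · exact finite_quotient_infNorms w
  · haveI : (locNorms L v.1).FiniteIndex := ⟨locNorms_index_ne_zero v.1⟩
    exact (Subgroup.finite_quotient_of_finiteIndex : Finite (Kˣ ⧸ locNorms L v.1))

section cyclic

variable [IsMulCommutative (L ≃ₐ[K] L)] {σ : L ≃ₐ[K] L} (hσ : ∀ g, g ∈ Subgroup.zpowers σ)
  {T : Finset (HeightOneSpectrum (𝓞 K))}
include hσ

theorem normU'_mem_locGroups (i : InfinitePlace K ⊕ {v // v ∈ T}) (x : Lˣ) :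
    normU' x ∈ locGroups L T i := by
  rcases i with w | v
  · exact fun h hr => norm_pos_of_ramified hσ hr h x
  · exact normU'_mem_locNorms v.1 x

theorem card_locClasses_locGroups (hcl : IsClassSet T) (hclL : IsClassSet (primesAbove L T))
    (hram : ∀ v, IsRam L v → v ∈ T) :
    Nat.card (LocClasses T (locGroups L T)) = Module.finrank K L := by
  choose k hk using exists_nearOne_le_locNorms (K := K) (L := L)
  choose NI hI0 hI1 hI2 hI3 using exists_infSub hσ
  refine le_antisymm (card_locClasses_le T hcl hclL (locGroups L T) (normU'_mem_locGroups hσ)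
    (fun w a ha h _ => ha h) (fun v => k v.1) fun v => hk v.1)
    (card_locClasses hσ T hcl hram (locGroups L T) ?_ (normU'_mem_locGroups hσ))
  rintro (w | v)
  · refine (hI1 w).trans (Nat.le_of_dvd (Nat.pos_of_ne_zero ?_)
      (Subgroup.index_dvd_of_le fun a ha => hI3 w a ha))
    haveI := finite_quotient_infNorms (L := L) w
    exact (Subgroup.index_ne_zero_of_finite : (infNorms L w).index ≠ 0)
  · exact finIdx_le_index_locNorms hσ v.1

/-- The extension in a class field with an exempt place. -/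
theorem exists_embedding_exempt (hcl : IsClassSet T) (hclL : IsClassSet (primesAbove L T))
    (hram : ∀ v, IsRam L v → v ∈ T) (good : Set (InfinitePlace K ⊕ {v // v ∈ T}))
    (hex : ∀ i ∉ good, ∀ x : Kˣ ⧸ locGroups L T i,
      (QuotientGroup.mk (singleLoc i x) : LocClasses T (locGroups L T)) = 1) :
    (∀ v : {v // v ∈ T}, Sum.inr v ∉ good → finIdx L v.1 = 1) ∧
      ∀ w : InfinitePlace K, Sum.inl w ∉ good → w.IsUnramifiedIn L := by
  choose k hk using exists_nearOne_le_locNorms (K := K) (L := L)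
  obtain ⟨𝔪, h𝔪, H, hv, hsemi, hnorm, hidx⟩ := exists_kernel_exempt (L := L) hcl hclL
    (normU'_mem_locGroups hσ) (fun w a ha h _ => ha h) (fun v => k v.1) (fun v => hk v.1) good hex
  rw [card_locClasses_locGroups hσ hcl hclL hram] at hidx
  obtain ⟨E, _, _, _, _, _, hE⟩ := exists_classField h𝔪 _ H hsemi
  obtain ⟨f⟩ := exists_algHom_of_split (L := L) (E := E) (Ideal.finite_factors h𝔪) fun v hv' h1 => by
    have hc : v.asIdeal ⊔ 𝔪 = ⊤ :=
      (sup_eq_top_iff_not_le v 𝔪).2 fun h => hv' (Ideal.dvd_iff_le.2 h)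
    exact (hE.artinAt_eq_one_iff v hc).2 (hnorm (rayClass_mem_of_artinAt h𝔪 hc h1))
  have hdeg : Module.finrank K E = Module.finrank K L := by
    rw [← IsGalois.card_aut_eq_finrank, hE.card_eq, hidx]
  let e : E ≃ₐ[K] L := AlgEquiv.ofBijective f ⟨f.toRingHom.injective,
    (LinearMap.injective_iff_surjective_of_finrank_eq_finrank (f := f.toLinearMap) hdeg).1
      f.toRingHom.injective⟩
  refine ⟨fun v hv' => ?_, fun w hw => isUnramifiedIn_of_algHom e.symm.toAlgHom (hE.unramInf w hw)⟩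
  obtain ⟨hc, hmem⟩ := hv v hv'
  have hr : ¬ IsRam L v.1 := isRam_of_algHom e.symm.toAlgHom (hE.unram v.1 hc)
  have h1 : artinAt L v.1 = 1 :=
    artinAt_eq_one_of_algHom e.symm.toAlgHom hr ((hE.artinAt_eq_one_iff v.1 hc).2 hmem)
  rw [finIdx_eq_fDeg hr, ← FA.PrincipalIdeal.orderOf_artinAt hr, h1, orderOf_one]

/-- Two non-members of a local group differ by a member, in the quadratic case. -/
theorem div_mem_locGroups (h2 : Module.finrank K L = 2) (i : InfinitePlace K ⊕ {v // v ∈ T})
    {a b : Kˣ} (ha : a ∉ locGroups L T i) (hb : b ∉ locGroups L T i) :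
    a / b ∈ locGroups L T i := by
  rcases i with w | v
  · exact div_mem_infNorms ha hb
  · show a / b ∈ locNorms L v.1
    have h1 : (locNorms L v.1).index = 2 := by
      have hdvd : finIdx L v.1 ∣ 2 := h2 ▸ Dvd.intro _ (finIdx_mul_card hσ v.1)
      rw [locNorms_index_eq hσ]
      refine ((Nat.dvd_prime Nat.prime_two).1 hdvd).resolve_left fun h => ha ?_
      show a ∈ locNorms L v.1
      rw [Subgroup.index_eq_one.1 ((locNorms_index_eq hσ v.1).trans h)]
      exact Subgroup.mem_top a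
    rw [div_eq_mul_inv, Subgroup.mul_mem_iff_of_index_two h1, inv_mem_iff]
    exact iff_of_false ha hb

/-- An element outside one local group has a nontrivial class at that place alone. -/
theorem singleLoc_class_ne_one (h2 : Module.finrank K L = 2) (hcl : IsClassSet T)
    (hclL : IsClassSet (primesAbove L T)) (hram : ∀ v, IsRam L v → v ∈ T) {a : Kˣ}
    {i : InfinitePlace K ⊕ {v // v ∈ T}} (hi : a ∉ locGroups L T i) :
    (QuotientGroup.mk (singleLoc i (QuotientGroup.mk a)) : LocClasses T (locGroups L T)) ≠ 1 := by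
  intro hq
  have hex : ∀ x : Kˣ ⧸ locGroups L T i,
      (QuotientGroup.mk (singleLoc i x) : LocClasses T (locGroups L T)) = 1 := fun x => by
    obtain ⟨x, rfl⟩ := QuotientGroup.mk_surjective x
    by_cases hx : x ∈ locGroups L T i
    · rw [(QuotientGroup.eq_one_iff x).2 hx, singleLoc_one, QuotientGroup.mk_one]
    · rw [show (QuotientGroup.mk x : Kˣ ⧸ locGroups L T i) = QuotientGroup.mk a from
        QuotientGroup.eq_iff_div_mem.2 (div_mem_locGroups hσ h2 i hx hi)]
      exact hq
  have h := exists_embedding_exempt hσ hcl hclL hram {j | j ≠ i} fun j hj => by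
    rw [show j = i from not_not.1 hj]
    exact hex
  rcases i with w | v
  · exact hi fun hw hr => absurd (h.2 w fun hh => hh rfl) hr
  · refine hi (show a ∈ locNorms L v.1 from ?_)
    rw [Subgroup.index_eq_one.1 ((locNorms_index_eq hσ v.1).trans (h.1 v fun hh => hh rfl))]
    exact Subgroup.mem_top a

/-- **The places where an element is no local norm are even in number.** -/
theorem even_card_not_mem (h2 : Module.finrank K L = 2) (hcl : IsClassSet T)
    (hclL : IsClassSet (primesAbove L T)) (hram : ∀ v, IsRam L v → v ∈ T) {a : Kˣ}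
    (ha : a ∈ tUnit T) : Even (Finset.univ.filter fun i => a ∉ locGroups L T i).card := by
  have hcard := card_locClasses_locGroups hσ hcl hclL hram
  rw [h2] at hcard
  set q : InfinitePlace K ⊕ {v // v ∈ T} → LocClasses T (locGroups L T) :=
    fun i => QuotientGroup.mk (singleLoc i (QuotientGroup.mk a))
  have hne : ∀ i, a ∉ locGroups L T i → q i ≠ 1 := fun i hi =>
    singleLoc_class_ne_one hσ h2 hcl hclL hram hi
  obtain ⟨c, hc, huniq⟩ := (Nat.card_eq_two_iff' (1 : LocClasses T (locGroups L T))).1 hcard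
  have hprod : ∏ i, q i = 1 := by
    show ∏ i, (QuotientGroup.mk (singleLoc i (QuotientGroup.mk a)) :
      LocClasses T (locGroups L T)) = 1
    rw [← QuotientGroup.mk_prod,
      show (∏ i, singleLoc i (QuotientGroup.mk a)) = diag T (locGroups L T) a from
        prod_singleLoc (diag T (locGroups L T) a)]
    exact (QuotientGroup.eq_one_iff _).2 (Subgroup.mem_map_of_mem _ ha)
  rw [← Finset.prod_filter_mul_prod_filter_not (p := fun i => a ∉ locGroups L T i),
    Finset.prod_eq_one (s := Finset.univ.filter fun i => ¬ a ∉ locGroups L T i) (fun i hi => by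
      show (QuotientGroup.mk (singleLoc i (QuotientGroup.mk a)) :
        LocClasses T (locGroups L T)) = 1
      rw [(QuotientGroup.eq_one_iff a).2 (not_not.1 (Finset.mem_filter.1 hi).2), singleLoc_one,
        QuotientGroup.mk_one]), mul_one,
    Finset.prod_congr rfl (fun i hi => huniq (q i) (hne i (Finset.mem_filter.1 hi).2)),
    Finset.prod_const, ← orderOf_dvd_iff_pow_eq_one] at hprod
  have hord : orderOf c = 2 := orderOf_eq_prime (by
    by_contra h
    have h3 := huniq _ h
    rw [sq, mul_eq_left] at h3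
    exact hc h3) hc
  exact even_iff_two_dvd.2 (hord ▸ hprod)

end cyclic

/-! ### Conics -/

theorem mem_locNorms_iff_conic {a : K} (ha : a ≠ 0) (h2 : Module.finrank K L = 2) {α : L}
    (hα : α ^ 2 = algebraMap K L a) (hnot : ∀ c : K, algebraMap K L c ≠ α)
    (v : HeightOneSpectrum (𝓞 K)) (b : Kˣ) :
    b ∈ locNorms L v ↔ ∃ x y : v.adicCompletion K, algebraMap K (v.adicCompletion K) a * x ^ 2 +
      algebraMap K (v.adicCompletion K) b * y ^ 2 = 1 := by
  set g := algebraMap K (v.adicCompletion K)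
  constructor
  · intro hmem
    obtain ⟨U, hU, hUsq⟩ := exists_isSquare_mul_near v (one_ne_zero (α := v.adicCompletion K))
    obtain ⟨k, hk⟩ := exists_exp_subset v hU
    obtain ⟨z, hz⟩ := mem_locNorms.1 hmem k
    obtain ⟨hn, hdec⟩ := norm_quadratic h2 hα hnot
    obtain ⟨p, q, hpq⟩ := hdec (z : L)
    have hne : p ^ 2 - a * q ^ 2 ≠ 0 := by
      rw [← hn, ← hpq]
      exact Algebra.norm_ne_zero_iff.2 z.ne_zero
    rw [hpq, hn] at hz
    obtain ⟨s, hs0, hs⟩ := hUsq _ (hk (g ((b : K) / (p ^ 2 - a * q ^ 2))) (by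
      rwa [← map_one g, ← map_sub, valued_algebraMap]))
    rw [one_mul, map_div₀, div_eq_iff ((map_ne_zero g).2 hne)] at hs
    refine exists_conic_point (two_ne_zero_completion v) ((map_ne_zero g).2 ha)
      ((map_ne_zero g).2 b.ne_zero) (p := g p * s) (q := g q * s) ?_
    rw [hs, map_sub, map_mul, map_pow, map_pow]
    ring
  · rintro ⟨x, y, h⟩
    exact mem_locNorms_of_form h2 hα hnot v b (exists_form_eq (two_ne_zero_completion v) h)

theorem not_isUnramifiedIn_of_neg {a : K} {α : L} (hα : α ^ 2 = algebraMap K L a)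
    {w : InfinitePlace K} (hw : IsReal w) (hneg : embedding_of_isReal hw a < 0) :
    ¬ w.IsUnramifiedIn L := fun h => by
  obtain ⟨u, rfl⟩ := InfinitePlace.comap_surjective (K := L) w
  rcases InfinitePlace.isUnramified_iff.1 (h u rfl) with hu | hu
  · set φ := u.embedding.comp (algebraMap K L)
    have hmk : InfinitePlace.mk φ = u.comap (algebraMap K L) := by
      rw [← InfinitePlace.comap_mk, InfinitePlace.mk_embedding]
    have hφ : ComplexEmbedding.IsReal φ := InfinitePlace.isReal_of_mk_isReal (hmk ▸ hw)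
    have hreal : (embedding_of_isReal hw a : ℂ) = (embedding_of_isReal hu α : ℂ) ^ 2 := by
      rw [embedding_of_isReal_apply, embedding_of_isReal_apply,
        show (u.comap (algebraMap K L)).embedding = φ by
          rw [← hmk, InfinitePlace.embedding_mk_eq_of_isReal hφ], ← map_pow, hα]
      rfl
    rw [← Complex.ofReal_pow, Complex.ofReal_inj] at hreal
    rw [hreal] at hneg
    exact absurd hneg (not_lt.2 (sq_nonneg _))
  · exact (InfinitePlace.not_isReal_iff_isComplex.2 hu) hw

theorem real_conic_iff {s t : ℝ} (hs : s ≠ 0) :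
    (¬ ∃ x y : ℝ, s * x ^ 2 + t * y ^ 2 = 1) ↔ s < 0 ∧ t ≤ 0 := by
  constructor
  · intro h
    refine ⟨lt_of_le_of_ne (not_lt.1 fun hs' => h ⟨1 / Real.sqrt s, 0, ?_⟩) hs,
      not_lt.1 fun ht => h ⟨0, 1 / Real.sqrt t, ?_⟩⟩
    · rw [div_pow, one_pow, Real.sq_sqrt hs'.le]
      field_simp
      ring
    · rw [div_pow, one_pow, Real.sq_sqrt ht.le]
      field_simp
      ring
  · rintro ⟨hs', ht⟩ ⟨x, y, h⟩
    nlinarith [mul_nonpos_of_nonpos_of_nonneg hs'.le (sq_nonneg x),
      mul_nonpos_of_nonpos_of_nonneg ht (sq_nonneg y)]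

/-- At a real place the local norms are where the conic has a point. -/
theorem mem_infNorms_iff_conic {a : K} (ha : a ≠ 0) (h2 : Module.finrank K L = 2) {α : L}
    (hα : α ^ 2 = algebraMap K L a) (hnot : ∀ c : K, algebraMap K L c ≠ α)
    {w : InfinitePlace K} (hw : IsReal w) (b : Kˣ) :
    b ∈ infNorms L w ↔
      ∃ x y : ℝ, embedding_of_isReal hw a * x ^ 2 + embedding_of_isReal hw b * y ^ 2 = 1 := by
  rw [← not_iff_not, real_conic_iff ((map_ne_zero _).2 ha)]
  constructor
  · intro h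
    rw [mem_infNorms] at h
    push Not at h
    obtain ⟨h', hr, hle⟩ := h
    exact ⟨lt_of_le_of_ne (not_lt.1 fun hp => hr (isUnramifiedIn_of_pos h2 hα hnot hw hp))
      ((map_ne_zero _).2 ha), hle⟩
  · rintro ⟨h1, h2'⟩ hmem
    exact h2'.not_gt ((mem_infNorms.1 hmem) hw (not_isUnramifiedIn_of_neg hα hw h1))

/-- The places without a point are finitely many and even in number. -/
theorem even_card_no_point {a b : K} (ha : a ≠ 0) (hb : b ≠ 0) :
    {v : HeightOneSpectrum (𝓞 K) | ¬ ∃ x y : v.adicCompletion K,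
        algebraMap K (v.adicCompletion K) a * x ^ 2 +
          algebraMap K (v.adicCompletion K) b * y ^ 2 = 1}.Finite ∧
    Even ({v : HeightOneSpectrum (𝓞 K) | ¬ ∃ x y : v.adicCompletion K,
        algebraMap K (v.adicCompletion K) a * x ^ 2 +
          algebraMap K (v.adicCompletion K) b * y ^ 2 = 1}.ncard +
      {φ : K →+* ℝ | ¬ ∃ x y : ℝ, φ a * x ^ 2 + φ b * y ^ 2 = 1}.ncard) := by
  by_cases hsq : IsSquare a
  · obtain ⟨c, rfl⟩ := hsq
    have hc : c ≠ 0 := fun h => ha (by rw [h, mul_zero])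
    have key : ∀ {F : Type u} [Field F] (f : K →+* F),
        ∃ x y : F, f (c * c) * x ^ 2 + f b * y ^ 2 = 1 := fun f => by
      refine ⟨f c⁻¹, 0, ?_⟩
      rw [← map_pow, ← map_mul, show c * c * c⁻¹ ^ 2 = 1 by field_simp, map_one]
      ring
    have h1 : {v : HeightOneSpectrum (𝓞 K) | ¬ ∃ x y : v.adicCompletion K,
        algebraMap K (v.adicCompletion K) (c * c) * x ^ 2 +
          algebraMap K (v.adicCompletion K) b * y ^ 2 = 1} = ∅ :=
      Set.eq_empty_iff_forall_notMem.2 fun v hv => hv (key _)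
    have h2 : {φ : K →+* ℝ | ¬ ∃ x y : ℝ, φ (c * c) * x ^ 2 + φ b * y ^ 2 = 1} = ∅ :=
      Set.eq_empty_iff_forall_notMem.2 fun φ hφ =>
        absurd ((real_conic_iff ((map_ne_zero φ).2 ha)).1 hφ).1
          (not_lt.2 (by rw [map_mul]; exact mul_self_nonneg _))
    rw [h1, h2]
    exact ⟨Set.finite_empty, by simp⟩
  obtain ⟨L, _, _, _, _, _, α, h2, hα, hnot⟩ := exists_sqrt_field hsq
  obtain ⟨σ, hσ⟩ := IsCyclic.exists_generator (α := L ≃ₐ[K] L)
  haveI : IsMulCommutative (L ≃ₐ[K] L) :=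
    ⟨⟨fun g g' => (IsCyclic.commGroup (α := L ≃ₐ[K] L)).mul_comm g g'⟩⟩
  set bu : Kˣ := Units.mk0 b hb
  obtain ⟨T, hT, hcl, hclL, hram⟩ := exists_good_set (L := L) (finite_ord_ne_zero bu).toFinset
  have hbT : bu ∈ tUnit T := fun v hv => by
    by_contra h
    exact hv (hT ((finite_ord_ne_zero bu).mem_toFinset.2 h))
  set fin := {v : HeightOneSpectrum (𝓞 K) | ¬ ∃ x y : v.adicCompletion K,
        algebraMap K (v.adicCompletion K) a * x ^ 2 +
          algebraMap K (v.adicCompletion K) b * y ^ 2 = 1}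
  set inf := {φ : K →+* ℝ | ¬ ∃ x y : ℝ, φ a * x ^ 2 + φ b * y ^ 2 = 1}
  have hfinT : ∀ v ∈ fin, v ∈ T ∧ bu ∉ locNorms L v := fun v hv => by
    have h1 : bu ∉ locNorms L v := fun h => hv ((mem_locNorms_iff_conic ha h2 hα hnot v bu).1 h)
    refine ⟨by_contra fun hvT => h1 ?_, h1⟩
    exact (mem_locNorms_iff_dvd hσ fun hr => hvT (hram v hr)).2
      (by rw [hbT v hvT]; exact dvd_zero _)
  have hfinite : fin.Finite := T.finite_toSet.subset fun v hv => (hfinT v hv).1
  refine ⟨hfinite, ?_⟩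
  set F := Finset.univ.filter fun i : InfinitePlace K ⊕ {v // v ∈ T} => bu ∉ locGroups L T i
  have hFcard : F.card = fin.ncard + inf.ncard := by
    have h1 : (F.toRight).card = fin.ncard := by
      rw [Set.ncard_eq_toFinset_card _ hfinite]
      refine Finset.card_bij (fun v _ => v.1) (fun v hv => ?_)
        (fun v _ v' _ h => Subtype.ext h) fun v hv => ?_
      · rw [Finset.mem_toRight, Finset.mem_filter] at hv
        exact hfinite.mem_toFinset.2 fun h =>
          hv.2 ((mem_locNorms_iff_conic ha h2 hα hnot v.1 bu).2 h)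
      · obtain ⟨hvT, hv'⟩ := hfinT v (hfinite.mem_toFinset.1 hv)
        exact ⟨⟨v, hvT⟩, Finset.mem_toRight.2 (Finset.mem_filter.2 ⟨Finset.mem_univ _, hv'⟩), rfl⟩
    have hmem : ∀ w, w ∈ F.toLeft → ∃ h : IsReal w, embedding_of_isReal h ∈ inf := fun w hw => by
      rw [Finset.mem_toLeft, Finset.mem_filter] at hw
      have hw' : bu ∉ infNorms L w := hw.2
      obtain ⟨h, -, -⟩ : ∃ h : IsReal w, ¬ w.IsUnramifiedIn L ∧
          embedding_of_isReal h (bu : K) ≤ 0 := by
        rw [mem_infNorms] at hw'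
        push Not at hw'
        exact hw'
      exact ⟨h, fun hp => hw' ((mem_infNorms_iff_conic ha h2 hα hnot h bu).2 hp)⟩
    have h3 : (F.toLeft).card = inf.ncard := by
      rw [Set.ncard_eq_toFinset_card _ (Set.toFinite _)]
      refine Finset.card_bij (fun w hw => embedding_of_isReal (hmem w hw).choose)
        (fun w hw => (Set.toFinite _).mem_toFinset.2 (hmem w hw).choose_spec)
        (fun w hw w' hw' h => embedding_of_isReal_inj _ _ h) fun φ hφ => ?_
      obtain ⟨⟨w, hw⟩, rfl⟩ := FA.Hecke.exists_isReal_embedding φ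
      exact ⟨w, Finset.mem_toLeft.2 (Finset.mem_filter.2 ⟨Finset.mem_univ _, fun hmem' =>
        (Set.toFinite _).mem_toFinset.1 hφ ((mem_infNorms_iff_conic ha h2 hα hnot hw bu).1 hmem')⟩),
        rfl⟩
    rw [← Finset.card_toLeft_add_card_toRight, h3, h1, add_comm]
  rw [← hFcard]
  exact even_card_not_mem hσ h2 hcl hclL hram hbT

end FA.QuadFormsNF

end
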