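import Fermat.Agent.QuadFormsNF.Local
import Fermat.Agent.QuadForms.Corollaries
import Fermat.Agent.PrincipalIdeal.Residue

/-!
# At most four variables

Local squares are squares, ternary forms are conics, and a quaternary form becomes the norm form of
quaternions over the quadratic extension by the root of its discriminant.
-/

set_option autoImplicit false
set_option linter.unusedSectionVars false
set_option linter.style.haveILetI false

noncomputable section

universe u

open NumberField NumberField.InfinitePlace IsDedekindDomain Finset WithZero Filter Topology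
open FA.ArtinRec
open FA.HasseCyclic (locNorms mem_locNorms exists_dense_near exists_conic_point
  exists_conic_point_of_local exists_form_eq exists_near_form norm_quadratic locNorms_index_eq
  mem_locNorms_iff_dvd)
open FA.QuadForms (Isotropic Iso3 isotropic_three_iff isotropic_two_iff exists_eq_of_binary_zero)
open scoped Pointwise nonZeroDivisors Classical

namespace FA.QuadFormsNF

/-- Nontrivial zeros in all completions. -/
def LocallyIsotropic {K : Type*} [Field K] [NumberField K] {ι : Type*} [Fintype ι] (a : ι → K) :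
    Prop :=
  (∀ v : HeightOneSpectrum (𝓞 K),
    Isotropic fun i => algebraMap K (v.adicCompletion K) (a i)) ∧
  ∀ φ : K →+* ℝ, Isotropic fun i => φ (a i)

section algebra

variable {F : Type*} [Field F]

/-- An isotropic form with square discriminant class of this shape has an isotropic ternary part. -/
theorem isotropic_three_of_four {A B : F} (s : F) (hs : s ≠ 0)
    (h : Isotropic ![1, -A, -B, A * B * s ^ 2]) : Isotropic ![1, -A, -B] := by
  obtain ⟨x, hx, he⟩ := h
  simp only [Fin.sum_univ_four, Matrix.cons_val_zero, Matrix.cons_val_one, Matrix.cons_val] at he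
  set w := s * x 3 with hw
  by_cases hN : x 2 ^ 2 - A * w ^ 2 = 0
  · by_cases h2 : x 2 = 0 ∧ w = 0
    · refine ⟨![x 0, x 1, 0], fun e => hx (funext fun i => ?_), ?_⟩
      · have e0 := congrFun e 0
        have e1 := congrFun e 1
        have h3 : x 3 = 0 := (mul_eq_zero.1 h2.2).resolve_left hs
        simp at e0 e1
        fin_cases i <;> simp [e0, e1, h2.1, h3]
      · simp only [Fin.sum_univ_three, Matrix.cons_val_zero, Matrix.cons_val_one, Matrix.cons_val]
        linear_combination he + B * hN
    · refine ⟨![x 2, w, 0], fun e => h2 ⟨?_, ?_⟩, ?_⟩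
      · simpa using congrFun e 0
      · simpa using congrFun e 1
      · simp only [Fin.sum_univ_three, Matrix.cons_val_zero, Matrix.cons_val_one, Matrix.cons_val]
        linear_combination hN
  · refine ⟨![x 0 * x 2 - A * x 1 * w, x 1 * x 2 - x 0 * w, x 2 ^ 2 - A * w ^ 2],
      fun e => hN ?_, ?_⟩
    · simpa using congrFun e 2
    · simp only [Fin.sum_univ_three, Matrix.cons_val_zero, Matrix.cons_val_one, Matrix.cons_val]
      linear_combination (x 2 ^ 2 - A * w ^ 2) * he

/-- Two orthogonal vectors with values in the ratio `-D` give a zero in four variables. -/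
theorem isotropic_four_of_pair {A B D : F} (x y : Fin 3 → F)
    (hne : x ≠ 0 ∨ y ≠ 0)
    (h1 : x 0 ^ 2 - A * x 1 ^ 2 - B * x 2 ^ 2 + D * (y 0 ^ 2 - A * y 1 ^ 2 - B * y 2 ^ 2) = 0)
    (h2 : x 0 * y 0 - A * x 1 * y 1 - B * x 2 * y 2 = 0) :
    Isotropic ![1, -A, -B, A * B * D] := by
  by_cases hq : y 0 ^ 2 - A * y 1 ^ 2 - B * y 2 ^ 2 = 0
  · have key : ∀ z : Fin 3 → F, z ≠ 0 → z 0 ^ 2 - A * z 1 ^ 2 - B * z 2 ^ 2 = 0 →
        Isotropic ![1, -A, -B, A * B * D] := fun z hz hzq => by
      refine ⟨![z 0, z 1, z 2, 0], fun e => hz (funext fun i => ?_), ?_⟩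
      · fin_cases i
        · simpa using congrFun e 0
        · simpa using congrFun e 1
        · simpa using congrFun e 2
      · simp only [Fin.sum_univ_four, Matrix.cons_val_zero, Matrix.cons_val_one, Matrix.cons_val]
        linear_combination hzq
    by_cases hy : y = 0
    · exact key x (hne.resolve_right fun h => h hy) (by linear_combination h1 - D * hq)
    · exact key y hy hq
  · refine ⟨![A * B * (x 1 * y 2 - x 2 * y 1), B * (x 2 * y 0 - x 0 * y 2),
      A * (x 0 * y 1 - x 1 * y 0), y 0 ^ 2 - A * y 1 ^ 2 - B * y 2 ^ 2],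
      fun e => hq (by simpa using congrFun e 3), ?_⟩
    simp only [Fin.sum_univ_four, Matrix.cons_val_zero, Matrix.cons_val_one, Matrix.cons_val]
    linear_combination (A * B * (y 0 ^ 2 - A * y 1 ^ 2 - B * y 2 ^ 2)) * h1
      - (A * B * (x 0 * y 0 - A * x 1 * y 1 - B * x 2 * y 2)) * h2

/-- A zero of the ternary normal form makes the conic soluble. -/
theorem exists_conic_of_iso3 [CharZero F] {A B : F} (hA : A ≠ 0) (hB : B ≠ 0) (h : Iso3 A B) :
    ∃ x y : F, A * x ^ 2 + B * y ^ 2 = 1 := by
  obtain ⟨x, y, z, hne, he⟩ := h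
  by_cases hz : z = 0
  · subst hz
    exact exists_eq_of_binary_zero (x := x) (y := y) hA hB (by tauto) (by linear_combination he) 1
  · refine ⟨x / z, y / z, ?_⟩
    field_simp
    linear_combination he

theorem iso3_of_conic {A B x y : F} (h : A * x ^ 2 + B * y ^ 2 = 1) : Iso3 A B :=
  ⟨x, y, 1, Or.inr (Or.inr one_ne_zero), by linear_combination h⟩

end algebra

section quadraticField

variable {K : Type u} [Field K] [NumberField K]

/-- The field of a square root. -/
theorem exists_sqrt_field {a : K} (hsq : ¬ IsSquare a) :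
    ∃ (L : Type u) (_ : Field L) (_ : NumberField L) (_ : Algebra K L) (_ : IsGalois K L)
      (_ : IsCyclic (L ≃ₐ[K] L)) (α : L),
      Module.finrank K L = 2 ∧ α ^ 2 = algebraMap K L a ∧ ∀ c : K, algebraMap K L c ≠ α := by
  obtain ⟨α, hα⟩ := IsAlgClosed.exists_pow_nat_eq (algebraMap K (AlgebraicClosure K) a)
    (show 0 < 2 by norm_num)
  have hnot : ∀ c : K, algebraMap K (AlgebraicClosure K) c ≠ α := fun c hc => hsq ⟨c,
    (algebraMap K (AlgebraicClosure K)).injective (by rw [map_mul, hc, ← hα, sq])⟩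
  let F : IntermediateField K (AlgebraicClosure K) := IntermediateField.adjoin K {α}
  have hint : IsIntegral K α := (Algebra.IsAlgebraic.isAlgebraic α).isIntegral
  haveI : FiniteDimensional K F := IntermediateField.adjoin.finiteDimensional hint
  have h2 : Module.finrank K F = 2 := by
    rw [IntermediateField.adjoin.finrank hint]
    refine le_antisymm ?_ ((minpoly.two_le_natDegree_iff hint).2 fun ⟨c, hc⟩ => hnot c hc)
    refine (Polynomial.natDegree_le_of_dvd (minpoly.dvd K α (p := Polynomial.X ^ 2 - Polynomial.C a)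
      (by simp [hα])) (Polynomial.X_pow_sub_C_ne_zero two_pos a)).trans ?_
    rw [Polynomial.natDegree_X_pow_sub_C]
  haveI : NumberField F := NumberField.of_module_finite K F
  haveI : Algebra.IsQuadraticExtension K F := { finrank_eq_two' := h2 }
  haveI : IsGalois K F := inferInstance
  exact ⟨F, inferInstance, inferInstance, inferInstance, inferInstance,
    isCyclic_of_prime_card (p := 2) ((IsGalois.card_aut_eq_finrank K F).trans h2),
    IntermediateField.AdjoinSimple.gen K α, h2, Subtype.ext (by show α ^ 2 = _; exact hα),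
    fun c hc => hnot c (congrArg (fun z : F => (z : AlgebraicClosure K)) hc)⟩

/-- A form value in the completion makes a local norm. -/
theorem mem_locNorms_of_form {L : Type*} [Field L] [NumberField L] [Algebra K L] [IsGalois K L]
    (h2 : Module.finrank K L = 2) {a : K} {α : L} (hα : α ^ 2 = algebraMap K L a)
    (hnot : ∀ c : K, algebraMap K L c ≠ α) (v : HeightOneSpectrum (𝓞 K)) (b : Kˣ)
    (h : ∃ p q : v.adicCompletion K,
      p ^ 2 - algebraMap K (v.adicCompletion K) a * q ^ 2 = algebraMap K (v.adicCompletion K) b) :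
    b ∈ locNorms L v := by
  refine mem_locNorms.2 fun k => ?_
  obtain ⟨p, q, hne, hpq⟩ := exists_near_form v a b h k
  have hn := (norm_quadratic h2 hα hnot).1
  have hw : algebraMap K L p + algebraMap K L q * α ≠ 0 := fun h0 => hne (by
    rw [← hn, h0, Algebra.norm_zero])
  refine ⟨Units.mk0 _ hw, ?_⟩
  rwa [Units.val_mk0, hn]

/-- **An element that is a square in every completion is a square.** -/
theorem isSquare_of_local {c : K} (hc : c ≠ 0)
    (h : ∀ v : HeightOneSpectrum (𝓞 K), IsSquare (algebraMap K (v.adicCompletion K) c)) :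
    IsSquare c := by
  by_contra hsq
  obtain ⟨L, _, _, _, _, _, α, h2, hα, hnot⟩ := exists_sqrt_field hsq
  obtain ⟨σ, hσ⟩ := IsCyclic.exists_generator (α := L ≃ₐ[K] L)
  haveI : IsMulCommutative (L ≃ₐ[K] L) :=
    ⟨⟨fun g g' => (IsCyclic.commGroup (α := L ≃ₐ[K] L)).mul_comm g g'⟩⟩
  have hord : orderOf σ = 2 := by
    rw [orderOf_eq_card_of_forall_mem_zpowers hσ, IsGalois.card_aut_eq_finrank, h2]
  obtain ⟨v, hv, hram⟩ := ((infinite_artinAt (L := L) σ).sdiff (finite_isRam K L)).nonempty
  have hf : fDeg L v = 2 := by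
    rw [← FA.PrincipalIdeal.orderOf_artinAt hram, hv, hord]
  have htop : locNorms L v = ⊤ := eq_top_iff.2 fun b _ => by
    refine mem_locNorms_of_form h2 hα hnot v b ?_
    obtain ⟨s, hs⟩ := h v
    have hs0 : s ≠ 0 := fun h0 => hc ((map_eq_zero _).1 (by rw [hs, h0, mul_zero]))
    set B := algebraMap K (v.adicCompletion K) (b : K)
    refine ⟨(1 + B) / 2, (1 - B) / (2 * s), ?_⟩
    have := two_ne_zero_completion v
    rw [hs]
    field_simp
    ring
  have h1 := locNorms_index_eq hσ v
  rw [htop, Subgroup.index_top, finIdx_eq_fDeg hram, hf] at h1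
  exact absurd h1 (by norm_num)

/-- Binary forms. -/
theorem isotropic_two_of_local {a : Fin 2 → K} (ha : ∀ i, a i ≠ 0) (h : LocallyIsotropic a) :
    Isotropic a := by
  have e : ∀ {G : Type u} [Field G] (f : K →+* G), (fun i => f (a i)) = ![f (a 0), f (a 1)] := by
    intro G _ f; funext i; fin_cases i <;> rfl
  rw [show a = ![a 0, a 1] by funext i; fin_cases i <;> rfl, isotropic_two_iff (ha 0)]
  refine isSquare_of_local (neg_ne_zero.2 (mul_ne_zero (ha 0) (ha 1))) fun v => ?_
  have h1 := h.1 v
  rw [e, isotropic_two_iff ((map_ne_zero _).2 (ha 0))] at h1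
  rwa [map_neg, map_mul]

/-- Ternary forms. -/
theorem isotropic_three_of_local {a b c : K} (ha : a ≠ 0) (hb : b ≠ 0) (hc : c ≠ 0)
    (h : LocallyIsotropic ![a, b, c]) : Isotropic ![a, b, c] := by
  rw [isotropic_three_iff hc]
  have hA : -a / c ≠ 0 := div_ne_zero (neg_ne_zero.2 ha) hc
  have hB : -b / c ≠ 0 := div_ne_zero (neg_ne_zero.2 hb) hc
  obtain ⟨x, y, hxy⟩ := exists_conic_point_of_local hA hB (fun v => by
    haveI := charZero_completion v
    have h1 := h.1 v
    rw [show (fun i => algebraMap K (v.adicCompletion K) (![a, b, c] i)) =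
      ![algebraMap K (v.adicCompletion K) a, algebraMap K (v.adicCompletion K) b,
        algebraMap K (v.adicCompletion K) c] by funext i; fin_cases i <;> rfl,
      isotropic_three_iff ((map_ne_zero _).2 hc)] at h1
    rw [← map_neg, ← map_neg, ← map_div₀, ← map_div₀] at h1
    exact exists_conic_of_iso3 ((map_ne_zero _).2 hA) ((map_ne_zero _).2 hB) h1) fun φ => by
    by_contra hn
    push Not at hn
    obtain ⟨x, hx, he⟩ := h.2 φ
    simp only [Fin.sum_univ_three, Matrix.cons_val_zero, Matrix.cons_val_one, Matrix.cons_val] at he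
    rw [map_div₀, map_neg, map_div₀, map_neg] at hn
    have hc' : φ c ≠ 0 := (map_ne_zero φ).2 hc
    have ha' : 0 < φ a / φ c := lt_of_le_of_ne (by linarith [neg_div (φ c) (φ a), hn.1])
      (Ne.symm (div_ne_zero ((map_ne_zero φ).2 ha) hc'))
    have hb' : 0 < φ b / φ c := lt_of_le_of_ne (by linarith [neg_div (φ c) (φ b), hn.2])
      (Ne.symm (div_ne_zero ((map_ne_zero φ).2 hb) hc'))
    have he' : φ a / φ c * x 0 ^ 2 + φ b / φ c * x 1 ^ 2 + x 2 ^ 2 = 0 := by
      field_simp
      linear_combination he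
    refine hx (funext fun i => ?_)
    have t0 := mul_nonneg ha'.le (sq_nonneg (x 0))
    have t1 := mul_nonneg hb'.le (sq_nonneg (x 1))
    have t2 := sq_nonneg (x 2)
    fin_cases i
    · exact pow_eq_zero_iff two_ne_zero |>.1 ((mul_eq_zero.1 (by linarith :
        φ a / φ c * x 0 ^ 2 = 0)).resolve_left ha'.ne')
    · exact pow_eq_zero_iff two_ne_zero |>.1 ((mul_eq_zero.1 (by linarith :
        φ b / φ c * x 1 ^ 2 = 0)).resolve_left hb'.ne')
    · exact pow_eq_zero_iff two_ne_zero |>.1 (by linarith : x 2 ^ 2 = 0)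
  exact iso3_of_conic hxy

variable {L : Type*} [Field L] [NumberField L] [Algebra K L] [IsGalois K L]

/-- **Isotropy passes to the completions of a Galois extension.** -/
theorem isotropic_extend {ι : Type*} [Fintype ι] {a : ι → K} (ha : ∀ i, a i ≠ 0)
    (Q : HeightOneSpectrum (𝓞 L))
    (h : Isotropic fun i => algebraMap K ((belowP K Q).adicCompletion K) (a i)) :
    Isotropic fun i => algebraMap L (Q.adicCompletion L) (algebraMap K L (a i)) := by
  set v := belowP K Q
  obtain ⟨x, hx, he⟩ := h
  obtain ⟨i, hi⟩ : ∃ i, x i ≠ 0 := by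
    by_contra hne
    push Not at hne
    exact hx (funext hne)
  obtain ⟨U, hU, hUsq⟩ := exists_isSquare_mul_near Q (one_ne_zero (α := Q.adicCompletion L))
  obtain ⟨k, hk⟩ := exists_exp_subset Q hU
  set f : (ι → v.adicCompletion K) → v.adicCompletion K := fun y =>
    -(∑ j ∈ univ.erase i, algebraMap K (v.adicCompletion K) (a j) * y j ^ 2) /
      (algebraMap K (v.adicCompletion K) (a i) * y i ^ 2)
  have hden : algebraMap K (v.adicCompletion K) (a i) * x i ^ 2 ≠ 0 :=
    mul_ne_zero ((map_ne_zero _).2 (ha i)) (pow_ne_zero 2 hi)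
  have hf : ContinuousAt f x := by
    refine ContinuousAt.div (Continuous.continuousAt ?_) (Continuous.continuousAt ?_) hden <;>
      fun_prop
  have hfx : f x = 1 := by
    rw [← add_sum_erase _ _ (mem_univ i)] at he
    show -(∑ j ∈ univ.erase i, _) / _ = 1
    rw [div_eq_one_iff_eq hden]
    linear_combination -he
  obtain ⟨γ, hγ⟩ := exists_element_near v 0 k
  have hcnd : ∀ᶠ y in 𝓝 x, Valued.v (f y - 1) ≤ exp (-(k : ℤ)) ∧ y i ≠ 0 := by
    refine Filter.Eventually.and ?_ ((continuous_apply i).continuousAt.eventually_ne hi)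
    have hc : Valued.v (algebraMap K (v.adicCompletion K) ((unif v : K) ^ k)) = exp (-(k : ℤ)) := by
      rw [valued_algebraMap, map_pow, valuation_eq_exp, ord_unif, ← exp_nsmul]
      simp
    have hball := (Valued.isOpen_ball (v.adicCompletion K)
      ((Valued.v (R := v.adicCompletion K)).restrict
        (algebraMap K (v.adicCompletion K) ((unif v : K) ^ k)))).mem_nhds
      (x := f x - 1) (by
        rw [Set.mem_ofPred_eq, hfx, sub_self, Valuation.restrict_lt_iff, map_zero, hc]
        exact exp_pos)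
    filter_upwards [(hf.sub continuousAt_const).preimage_mem_nhds hball] with y hy
    exact (((Valuation.restrict_lt_iff _).1 hy).trans_eq hc).le
  obtain ⟨W, hW, hWo, hxW⟩ := mem_nhds_iff.1 hcnd
  obtain ⟨y, hy⟩ := (DenseRange.piMap fun _ : ι =>
    HeightOneSpectrum.denseRange_algebraMap K v).exists_mem_open hWo ⟨x, hxW⟩
  obtain ⟨hyv, hyi⟩ := hW hy
  simp only [f, Pi.map_apply] at hyv hyi
  set w : K := -(∑ j ∈ univ.erase i, a j * y j ^ 2) / (a i * y i ^ 2)
  have hw : v.valuation K (w - 1) ≤ exp (-(k : ℤ)) := by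
    rw [← valued_algebraMap]
    simpa [w] using hyv
  have hy0 : y i ≠ 0 := fun h0 => hyi (by rw [h0, map_zero])
  obtain ⟨s, hs0, hs⟩ := hUsq _ (hk (algebraMap L (Q.adicCompletion L) (algebraMap K L w)) (by
    rw [← map_one (algebraMap L (Q.adicCompletion L)), ← map_sub, valued_algebraMap,
      ← map_one (algebraMap K L), ← map_sub, valuation_baseU]
    refine (pow_le_pow_left₀ zero_le hw _).trans ?_
    rw [← exp_nsmul]
    exact exp_le_exp.2 (by
      have : (1 : ℤ) ≤ eIdx K Q := by exact_mod_cast eIdx_pos Q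
      simp only [nsmul_eq_mul]
      nlinarith)))
  set ρ := (algebraMap L (Q.adicCompletion L)).comp (algebraMap K L) with hρ
  rw [one_mul] at hs
  refine ⟨fun j => if j = i then ρ (y i) * s else ρ (y j), fun e => ?_, ?_⟩
  · have := congrFun e i
    simp only [if_true, Pi.zero_apply] at this
    exact mul_ne_zero ((map_ne_zero ρ).2 hy0) hs0 this
  · rw [← add_sum_erase _ _ (mem_univ i)]
    simp only [if_true]
    rw [sum_congr rfl (g := fun j => ρ (a j * y j ^ 2)) fun j hj => by
      rw [if_neg (ne_of_mem_erase hj), map_mul, map_pow]; rfl, ← map_sum, mul_pow, ← mul_assoc]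
    rw [show s ^ 2 = ρ w from hs.symm, show algebraMap L (Q.adicCompletion L) (algebraMap K L (a i)) =
      ρ (a i) from rfl, ← map_pow, ← map_mul, ← map_mul, ← map_add, show
        a i * y i ^ 2 * w + ∑ j ∈ univ.erase i, a j * y j ^ 2 = 0 by
        rw [mul_div_cancel₀ _ (mul_ne_zero (ha i) (pow_ne_zero 2 hy0))]
        ring, map_zero]

/-- Quaternary forms in normal shape. -/
theorem isotropic_four_normal {A B D : K} (hA : A ≠ 0) (hB : B ≠ 0) (hD : D ≠ 0)
    (h : LocallyIsotropic ![1, -A, -B, A * B * D]) : Isotropic ![1, -A, -B, A * B * D] := by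
  by_cases hsq : IsSquare D
  · obtain ⟨s, rfl⟩ := hsq
    have hs : s ≠ 0 := fun h0 => hD (by rw [h0, mul_zero])
    have hl : LocallyIsotropic ![(1 : K), -A, -B] := by
      refine ⟨fun v => ?_, fun φ => ?_⟩
      · have h1 := h.1 v
        set g := algebraMap K (v.adicCompletion K)
        rw [show (fun i => g (![1, -A, -B, A * B * (s * s)] i)) =
          ![1, -g A, -g B, g A * g B * g s ^ 2] by funext i; fin_cases i <;> simp [sq]] at h1
        rw [show (fun i => g (![1, -A, -B] i)) = ![1, -g A, -g B] by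
          funext i; fin_cases i <;> simp]
        exact isotropic_three_of_four _ ((map_ne_zero g).2 hs) h1
      · have h1 := h.2 φ
        rw [show (fun i => φ (![1, -A, -B, A * B * (s * s)] i)) =
          ![1, -φ A, -φ B, φ A * φ B * φ s ^ 2] by funext i; fin_cases i <;> simp [sq]] at h1
        rw [show (fun i => φ (![1, -A, -B] i)) = ![1, -φ A, -φ B] by
          funext i; fin_cases i <;> simp]
        exact isotropic_three_of_four _ ((map_ne_zero φ).2 hs) h1
    obtain ⟨x, hx, he⟩ := isotropic_three_of_local (a := 1) (b := -A) (c := -B) one_ne_zero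
      (neg_ne_zero.2 hA) (neg_ne_zero.2 hB) hl
    refine ⟨![x 0, x 1, x 2, 0], fun e => hx (funext fun i => ?_), ?_⟩
    · fin_cases i
      · simpa using congrFun e 0
      · simpa using congrFun e 1
      · simpa using congrFun e 2
    · simp only [Fin.sum_univ_three, Fin.sum_univ_four, Matrix.cons_val_zero,
        Matrix.cons_val_one, Matrix.cons_val] at he ⊢
      linear_combination he
  obtain ⟨L, _, _, _, _, _, α, h2, hα, hnot⟩ := exists_sqrt_field hsq
  set ι := algebraMap K L
  have hall : ∀ i, ![1, -A, -B, A * B * D] i ≠ 0 := fun i => by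
    fin_cases i <;> simp [hA, hB, hD]
  have hιD : ι D ≠ 0 := (map_ne_zero ι).2 hD
  have hα0 : α ≠ 0 := fun h0 => hιD (by rw [← hα, h0]; simp)
  have hl : LocallyIsotropic ![(1 : L), -ι A, -ι B] := by
    refine ⟨fun Q => ?_, fun ψ => ?_⟩
    · have h1 := isotropic_extend hall Q (h.1 (belowP K Q))
      set g := algebraMap L (Q.adicCompletion L)
      rw [show (fun i => g (ι (![1, -A, -B, A * B * D] i))) =
        ![1, -g (ι A), -g (ι B), g (ι A) * g (ι B) * g α ^ 2] by
          funext i; fin_cases i <;> simp [← map_pow g, hα, ι]] at h1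
      rw [show (fun i => g (![1, -ι A, -ι B] i)) = ![1, -g (ι A), -g (ι B)] by
        funext i; fin_cases i <;> simp]
      exact isotropic_three_of_four _ ((map_ne_zero g).2 hα0) h1
    · have h1 := h.2 (ψ.comp ι)
      rw [show (fun i => ψ.comp ι (![1, -A, -B, A * B * D] i)) =
        ![1, -ψ (ι A), -ψ (ι B), ψ (ι A) * ψ (ι B) * ψ α ^ 2] by
          funext i; fin_cases i <;> simp [← map_pow ψ, hα, ι]] at h1
      rw [show (fun i => ψ (![1, -ι A, -ι B] i)) = ![1, -ψ (ι A), -ψ (ι B)] by
        funext i; fin_cases i <;> simp]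
      exact isotropic_three_of_four _ ((map_ne_zero ψ).2 hα0) h1
  obtain ⟨x, hx, he⟩ := isotropic_three_of_local (a := (1 : L)) (b := -ι A) (c := -ι B) one_ne_zero
    (neg_ne_zero.2 ((map_ne_zero ι).2 hA)) (neg_ne_zero.2 ((map_ne_zero ι).2 hB)) hl
  obtain ⟨-, hdec⟩ := norm_quadratic h2 hα hnot
  choose p q hpq using fun i => hdec (x i)
  simp only [Fin.sum_univ_three, Matrix.cons_val_zero, Matrix.cons_val_one, Matrix.cons_val] at he
  rw [hpq 0, hpq 1, hpq 2] at he
  have hli : ∀ c d : K, ι c + ι d * α = 0 → c = 0 ∧ d = 0 := fun c d h0 => by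
    have hd : d = 0 := by
      by_contra hd
      refine hnot (-c / d) ?_
      rw [map_div₀, map_neg, div_eq_iff ((map_ne_zero ι).2 hd)]
      linear_combination -h0
    refine ⟨?_, hd⟩
    rw [hd, map_zero, zero_mul, add_zero] at h0
    exact (map_eq_zero ι).1 h0
  obtain ⟨e1, e2⟩ := hli
    (p 0 ^ 2 - A * p 1 ^ 2 - B * p 2 ^ 2 + D * (q 0 ^ 2 - A * q 1 ^ 2 - B * q 2 ^ 2))
    (2 * (p 0 * q 0 - A * p 1 * q 1 - B * p 2 * q 2)) (by
      simp only [map_add, map_sub, map_mul, map_pow, map_ofNat, ← hα]
      linear_combination he)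
  refine isotropic_four_of_pair p q ?_ e1
    ((mul_eq_zero.1 e2).resolve_left two_ne_zero)
  by_contra hn
  push Not at hn
  exact hx (funext fun i => by rw [hpq, hn.1, hn.2]; simp)

/-- Quaternary forms. -/
theorem isotropic_four_of_local {a : Fin 4 → K} (ha : ∀ i, a i ≠ 0) (h : LocallyIsotropic a) :
    Isotropic a := by
  have h0 := ha 0; have h1 := ha 1; have h2 := ha 2; have h3 := ha 3
  set A := -(a 1 / a 0) with hA
  set B := -(a 2 / a 0) with hB
  set D := a 3 / a 0 / (A * B) with hD
  have hA0 : A ≠ 0 := neg_ne_zero.2 (div_ne_zero h1 h0)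
  have hB0 : B ≠ 0 := neg_ne_zero.2 (div_ne_zero h2 h0)
  have hD0 : D ≠ 0 := div_ne_zero (div_ne_zero h3 h0) (mul_ne_zero hA0 hB0)
  have e : a = fun i => a 0 * ![1, -A, -B, A * B * D] i := by
    funext i
    fin_cases i
    · simp
    · simp [hA]; field_simp
    · simp [hB]; field_simp
    · simp [hD]; field_simp
  rw [e]
  refine Isotropic.smul (a 0) (isotropic_four_normal hA0 hB0 hD0 ⟨fun v => ?_, fun φ => ?_⟩)
  · refine Isotropic.of_smul ((map_ne_zero (algebraMap K (v.adicCompletion K))).2 h0) ?_
    have h1 := h.1 v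
    rw [e] at h1
    simpa only [map_mul] using h1
  · refine Isotropic.of_smul ((map_ne_zero φ).2 h0) ?_
    have h1 := h.2 φ
    rw [e] at h1
    simpa only [map_mul] using h1

end quadraticField

end FA.QuadFormsNF

end
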